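import Mathlib
import Fermat.Prelude.Def_AlgebraicCurve_Correspondence
import Fermat.Agent.MU.Lib.RR.OfSep
import Fermat.Agent.MU.Lib.RR.Hurwitz.Fibres

section MergeWrap_Lib_HP_Basic -- from Lib/HP/Basic.lean

set_option autoImplicit false
set_option linter.unusedSectionVars false
set_option linter.unusedVariables false
set_option linter.style.haveILetI false

/-!
# The curve `H_P : X₁ X₂ (X₁ - X₂)^(q-1) = c` (basic algebra)

`K` a field, `F / K` a field generated by `X₁, X₂` with `X₁ X₂ (X₁ - X₂)^(q-1) = c`, `c ≠ 0`,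
`X₁` transcendental.  With `s = X₂ / X₁` one has the Kummer form
`X₁^(q+1) · s (1 - s)^(q-1) = c`, `s` is transcendental (if `K` is algebraically closed) and
`F = K(s)(X₁)`.
-/

noncomputable section

open IntermediateField AlgebraicCurve Polynomial

namespace Fermat.Agent.HP

/-- the data of the curve `H_P` inside a field `F / K`. -/
structure HPCurve (K F : Type*) [Field K] [Field F] [Algebra K F] (q : ℕ) where
  /-- first coordinate -/
  X1 : F
  /-- second coordinate -/
  X2 : F
  /-- the constant -/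
  c : K
  c_ne : c ≠ 0
  q_two : 2 ≤ q
  rel : X1 * X2 * (X1 - X2) ^ (q - 1) = algebraMap K F c
  gen : IntermediateField.adjoin K {X1, X2} = ⊤
  transc : Transcendental K X1

variable {K F : Type*} [Field K] [Field F] [Algebra K F] {q : ℕ}

namespace HPCurve

variable (H : HPCurve K F q)

/-- the parameter `s = X₂ / X₁`. -/
def s : F := H.X2 / H.X1

theorem algebraMap_c_ne : algebraMap K F H.c ≠ 0 := by
  rw [Ne, map_eq_zero_iff _ (algebraMap K F).injective]
  exact H.c_ne

theorem X1_ne : H.X1 ≠ 0 := by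
  intro h
  have := H.rel
  rw [h] at this
  simp at this
  exact H.algebraMap_c_ne this.symm

theorem X2_ne : H.X2 ≠ 0 := by
  intro h
  have := H.rel
  rw [h] at this
  simp at this
  exact H.algebraMap_c_ne this.symm

theorem X2_eq : H.X2 = H.s * H.X1 := by
  unfold s
  rw [div_mul_cancel₀ _ H.X1_ne]

theorem s_ne : H.s ≠ 0 := div_ne_zero H.X2_ne H.X1_ne

/-- Kummer form of the equation. -/
theorem rel_s : H.X1 ^ (q + 1) * (H.s * (1 - H.s) ^ (q - 1)) = algebraMap K F H.c := by
  have h := H.rel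
  rw [H.X2_eq] at h
  rw [← h]
  have hq : q + 1 = (q - 1) + 2 := by have := H.q_two; omega
  have h1 : H.X1 - H.s * H.X1 = H.X1 * (1 - H.s) := by ring
  rw [h1, mul_pow, hq]
  ring

theorem one_sub_s_ne : 1 - H.s ≠ 0 := by
  intro h
  have h2 := H.rel_s
  have hq := H.q_two
  rw [h, zero_pow (by omega), mul_zero, mul_zero] at h2
  exact H.algebraMap_c_ne h2.symm

theorem X1_pow_eq :
    H.X1 ^ (q + 1) = algebraMap K F H.c * (H.s * (1 - H.s) ^ (q - 1))⁻¹ := by
  rw [← H.rel_s, mul_assoc, mul_inv_cancel₀, mul_one]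
  exact mul_ne_zero H.s_ne (pow_ne_zero _ H.one_sub_s_ne)

/-- `s` is transcendental. -/
theorem s_transcendental [IsAlgClosed K] : Transcendental K H.s := by
  intro halg
  obtain ⟨a, ha⟩ := Fermat.Agent.S24Res.mem_range_of_isAlgebraic halg
  apply H.transc
  have h2 := H.X1_pow_eq
  rw [← ha] at h2
  have h3 : H.X1 ^ (q + 1) = algebraMap K F (H.c * (a * (1 - a) ^ (q - 1))⁻¹) := by
    rw [h2]
    simp only [map_mul, map_inv₀, map_pow, map_sub, map_one]
  refine ⟨X ^ (q + 1) - C (H.c * (a * (1 - a) ^ (q - 1))⁻¹), ?_, ?_⟩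
  · intro h0
    have := congrArg (fun p => p.natDegree) h0
    simp only [natDegree_zero] at this
    rw [natDegree_sub_C, natDegree_X_pow] at this
    omega
  · simp only [map_sub, map_pow, aeval_X, aeval_C]
    rw [h3, sub_self]

theorem s_mem : H.s ∈ K⟮H.s⟯ := mem_adjoin_simple_self K H.s

theorem s_mem_adjoin : H.s ∈ IntermediateField.adjoin K⟮H.s⟯ {H.X1} :=
  IntermediateField.algebraMap_mem _ (⟨H.s, H.s_mem⟩ : K⟮H.s⟯)

theorem X1_mem_adjoin : H.X1 ∈ IntermediateField.adjoin K⟮H.s⟯ {H.X1} :=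
  IntermediateField.mem_adjoin_simple_self _ _

theorem X2_mem_adjoin : H.X2 ∈ IntermediateField.adjoin K⟮H.s⟯ {H.X1} := by
  rw [H.X2_eq]
  exact mul_mem H.s_mem_adjoin H.X1_mem_adjoin

/-- `F = K(s)(X₁)`. -/
theorem adjoin_X1_eq_top : IntermediateField.adjoin K⟮H.s⟯ {H.X1} = ⊤ := by
  have h1 : (IntermediateField.adjoin K {H.X1, H.X2} : IntermediateField K F) ≤
      (IntermediateField.adjoin K⟮H.s⟯ {H.X1}).restrictScalars K := by
    apply IntermediateField.adjoin_le_iff.mpr
    intro x hx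
    rcases hx with hx | hx
    · rw [hx]; exact H.X1_mem_adjoin
    · rw [Set.mem_singleton_iff] at hx
      rw [hx]; exact H.X2_mem_adjoin
  rw [H.gen] at h1
  apply top_unique
  intro x _
  exact h1 (IntermediateField.mem_top (F := K) (E := F) (x := x))

/-- the element `u = c / (s (1 - s)^(q-1))` of `K(s)`. -/
def u : K⟮H.s⟯ :=
  algebraMap K K⟮H.s⟯ H.c *
    ((⟨H.s, H.s_mem⟩ : K⟮H.s⟯) * (1 - (⟨H.s, H.s_mem⟩ : K⟮H.s⟯)) ^ (q - 1))⁻¹

theorem coe_u : (H.u : F) = algebraMap K F H.c * (H.s * (1 - H.s) ^ (q - 1))⁻¹ := by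
  unfold u
  push_cast
  rfl

theorem X1_pow_eq_u : H.X1 ^ (q + 1) = (H.u : F) := by
  rw [H.coe_u, H.X1_pow_eq]

theorem u_ne : H.u ≠ 0 := by
  intro h
  have h2 := H.X1_pow_eq_u
  rw [h] at h2
  simp only [ZeroMemClass.coe_zero] at h2
  exact H.X1_ne (pow_eq_zero_iff (by omega) |>.mp h2)

/-- the Kummer polynomial `T^(q+1) - u` over `K(s)`. -/
def kummerPoly : Polynomial K⟮H.s⟯ := X ^ (q + 1) - C H.u

theorem kummerPoly_monic : H.kummerPoly.Monic := monic_X_pow_sub_C _ (by omega)

theorem kummerPoly_natDegree : H.kummerPoly.natDegree = q + 1 := by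
  unfold kummerPoly
  rw [natDegree_sub_C, natDegree_X_pow]

theorem aeval_kummerPoly : aeval H.X1 H.kummerPoly = 0 := by
  unfold kummerPoly
  simp only [map_sub, map_pow, aeval_X, aeval_C]
  rw [H.X1_pow_eq_u, sub_eq_zero]
  rfl

theorem isIntegral_X1 : IsIntegral K⟮H.s⟯ H.X1 :=
  ⟨H.kummerPoly, H.kummerPoly_monic, H.aeval_kummerPoly⟩

instance finiteDimensional : FiniteDimensional K⟮H.s⟯ F := by
  have h1 : FiniteDimensional K⟮H.s⟯ (IntermediateField.adjoin K⟮H.s⟯ {H.X1}) :=
    IntermediateField.adjoin.finiteDimensional H.isIntegral_X1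
  rw [H.adjoin_X1_eq_top] at h1
  exact (IntermediateField.topEquiv (F := K⟮H.s⟯) (E := F)).toLinearEquiv.finiteDimensional

theorem finrank_le : Module.finrank K⟮H.s⟯ F ≤ q + 1 := by
  have h1 : Module.finrank K⟮H.s⟯ (IntermediateField.adjoin K⟮H.s⟯ {H.X1}) =
      (minpoly K⟮H.s⟯ H.X1).natDegree := IntermediateField.adjoin.finrank H.isIntegral_X1
  have h2 : Module.finrank K⟮H.s⟯ (IntermediateField.adjoin K⟮H.s⟯ {H.X1}) =
      Module.finrank K⟮H.s⟯ F := by
    rw [H.adjoin_X1_eq_top]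
    exact IntermediateField.finrank_top'
  rw [← h2, h1, ← H.kummerPoly_natDegree]
  exact natDegree_le_of_dvd (minpoly.dvd _ _ H.aeval_kummerPoly) H.kummerPoly_monic.ne_zero

/-- the Kummer polynomial is separable when `q + 1` is invertible in `K`. -/
theorem kummerPoly_separable (hq : ((q + 1 : ℕ) : K) ≠ 0) : H.kummerPoly.Separable := by
  unfold kummerPoly
  refine separable_X_pow_sub_C H.u ?_ H.u_ne
  intro h
  apply hq
  have : algebraMap K K⟮H.s⟯ ((q + 1 : ℕ) : K) = 0 := by
    rw [map_natCast]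
    exact h
  exact (map_eq_zero_iff _ (algebraMap K K⟮H.s⟯).injective).mp this

theorem isSeparable (hq : ((q + 1 : ℕ) : K) ≠ 0) : Algebra.IsSeparable K⟮H.s⟯ F := by
  have h1 : IsSeparable K⟮H.s⟯ H.X1 :=
    (H.kummerPoly_separable hq).of_dvd (minpoly.dvd _ _ H.aeval_kummerPoly)
  have h2 : Algebra.IsSeparable K⟮H.s⟯ (IntermediateField.adjoin K⟮H.s⟯ {H.X1}) :=
    (IntermediateField.isSeparable_adjoin_simple_iff_isSeparable K⟮H.s⟯ F).mpr h1
  rw [H.adjoin_X1_eq_top] at h2
  exact AlgEquiv.Algebra.isSeparable (IntermediateField.topEquiv (F := K⟮H.s⟯) (E := F))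

include H in
/-- `F` satisfies the standing hypotheses of the Riemann-Roch library. -/
theorem isRRField [IsAlgClosed K] (hq : ((q + 1 : ℕ) : K) ≠ 0) :
    Fermat.Agent.RR.IsRRField K F := by
  haveI := H.isSeparable hq
  exact Fermat.Agent.RR.isRRField_of_separable H.s_transcendental

end HPCurve

end Fermat.Agent.HP
end
end MergeWrap_Lib_HP_Basic

section MergeWrap_Lib_HP_Fibres -- from Lib/HP/Fibres.lean

set_option autoImplicit false
set_option linter.unusedSectionVars false
set_option linter.unusedVariables false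
set_option linter.style.haveILetI false

/-!
# The curve `H_P`: orders at the places over `s = 0, 1, ∞`

For every place `v` of `F = K(s)(X₁)`, `X₁^(q+1) s (1-s)^(q-1) = c`:
`(q+1) ord X₁ + ord s + (q-1) ord (1-s) = 0`.  Consequences:
* at a zero of `s`: `ord s = (q+1) (-ord X₁)`;
* at a pole of `s`: `ord s = (q+1) (ord X₁ + ord s)`;
* at a zero of `1 - s`: `2 ord (1-s) = (q+1) (ord X₁ + ord (1-s))`.
Hence `[F : K(s)] = q + 1`, `s` has exactly one zero and one pole.
-/

noncomputable section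

open IntermediateField AlgebraicCurve Polynomial

namespace Fermat.Agent.HP

open Fermat.Agent.RR Fermat.Agent.RRHur

variable {K F : Type*} [Field K] [Field F] [Algebra K F] {q : ℕ}

theorem hp_ord_neg (v : Place K F) (f : F) : v.ord (-f) = v.ord f := by
  unfold Place.ord
  rw [Valuation.map_neg]

theorem hp_ord_pow (v : Place K F) (f : F) (n : ℕ) : v.ord (f ^ n) = (n : ℤ) * v.ord f := by
  rw [← zpow_natCast, v.ord_zpow]

theorem hp_ord_sub_comm (v : Place K F) (f g : F) : v.ord (f - g) = v.ord (g - f) := by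
  rw [← hp_ord_neg, neg_sub]

namespace HPCurve

variable (H : HPCurve K F q)

theorem one_sub_s_eq : 1 - H.s = -(H.s - algebraMap K F 1) := by
  rw [map_one]; ring

theorem ord_one_sub_s (v : Place K F) : v.ord (1 - H.s) = v.ord (H.s - algebraMap K F 1) := by
  rw [H.one_sub_s_eq, hp_ord_neg]

theorem s_sub_zero : H.s - algebraMap K F 0 = H.s := by
  rw [map_zero, sub_zero]

/-- the fundamental relation between the orders. -/
theorem ord_rel (v : Place K F) :
    ((q : ℤ) + 1) * v.ord H.X1 + v.ord H.s + ((q : ℤ) - 1) * v.ord (1 - H.s) = 0 := by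
  have h := congrArg v.ord H.rel_s
  rw [Fermat.Agent.S24Res.ord_algebraMap,
    v.ord_mul (pow_ne_zero _ H.X1_ne) (mul_ne_zero H.s_ne (pow_ne_zero _ H.one_sub_s_ne)),
    v.ord_mul H.s_ne (pow_ne_zero _ H.one_sub_s_ne), hp_ord_pow, hp_ord_pow] at h
  have hq := H.q_two
  rw [Nat.cast_sub (by omega)] at h
  push_cast at h
  linarith

/-- at a zero of `s`. -/
theorem ord_s_of_pos (v : Place K F) (hv : 0 < v.ord H.s) :
    v.ord H.s = ((q : ℤ) + 1) * (-v.ord H.X1) := by
  have h1 : v.ord (1 - H.s) = 0 := by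
    rw [H.ord_one_sub_s]
    refine ord_sub_const_eq_zero v (c := 0) (c' := 1) zero_ne_one ?_
    rw [H.s_sub_zero]; exact hv
  have h2 := H.ord_rel v
  rw [h1] at h2
  linarith

/-- at a pole of `s`. -/
theorem ord_s_of_neg (v : Place K F) (hv : v.ord H.s < 0) :
    v.ord H.s = ((q : ℤ) + 1) * (v.ord H.X1 + v.ord H.s) := by
  have h1 : v.ord (1 - H.s) = v.ord H.s := by
    rw [H.ord_one_sub_s]
    exact ord_sub_const_of_pole v 1 hv
  have h2 := H.ord_rel v
  rw [h1] at h2
  linarith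

/-- at a zero of `s - c₀`, `c₀ ≠ 0`: `s` is a unit. -/
theorem ord_s_of_zero_ne (v : Place K F) {c₀ : K} (hc : c₀ ≠ 0)
    (hv : 0 < v.ord (H.s - algebraMap K F c₀)) : v.ord H.s = 0 := by
  have := ord_sub_const_eq_zero v (c := c₀) (c' := 0) hc hv
  rwa [H.s_sub_zero] at this

/-- at a zero of `s - 1`. -/
theorem ord_at_one (v : Place K F) (hv : 0 < v.ord (H.s - algebraMap K F 1)) :
    2 * v.ord (H.s - algebraMap K F 1) =
      ((q : ℤ) + 1) * (v.ord H.X1 + v.ord (H.s - algebraMap K F 1)) := by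
  have h1 : v.ord H.s = 0 := H.ord_s_of_zero_ne v one_ne_zero hv
  have h2 := H.ord_rel v
  rw [h1, H.ord_one_sub_s] at h2
  linarith

/-- at a zero of `s - c₀`, `c₀ ≠ 0, 1`: `X₁` is a unit. -/
theorem ord_X1_of_zero_ne (v : Place K F) {c₀ : K} (hc0 : c₀ ≠ 0) (hc1 : c₀ ≠ 1)
    (hv : 0 < v.ord (H.s - algebraMap K F c₀)) : v.ord H.X1 = 0 := by
  have h1 : v.ord H.s = 0 := H.ord_s_of_zero_ne v hc0 hv
  have h2 : v.ord (1 - H.s) = 0 := by
    rw [H.ord_one_sub_s]
    exact ord_sub_const_eq_zero v (c := c₀) (c' := 1) hc1 hv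
  have h3 := H.ord_rel v
  rw [h1, h2] at h3
  have h4 : ((q : ℤ) + 1) * v.ord H.X1 = 0 := by linarith
  rcases mul_eq_zero.mp h4 with h5 | h5
  · exfalso; have : (0 : ℤ) ≤ q := Int.natCast_nonneg q; omega
  · exact h5

section Count

variable [IsAlgClosed K] (hq1 : ((q + 1 : ℕ) : K) ≠ 0)

include hq1

/-- the degree is `q + 1` and `s` has exactly one zero. -/
theorem finrank_and_zero :
    Module.finrank K⟮H.s⟯ F = q + 1 ∧
      Nat.card {v : Place K F // 0 < v.ord (H.s - algebraMap K F 0)} = 1 := by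
  haveI := H.isSeparable hq1
  obtain ⟨S, hS, hsum⟩ := exists_finset_zeros_of_separable H.s_transcendental (0 : K)
  have hcard : Nat.card {v : Place K F // 0 < v.ord (H.s - algebraMap K F 0)} = S.card := by
    rw [← Nat.card_eq_finsetCard S]
    exact Nat.card_congr (Equiv.subtypeEquivRight fun v => (hS v).symm)
  have hpos : 0 < Module.finrank K⟮H.s⟯ F := Module.finrank_pos
  have hle := H.finrank_le
  have hge : ∀ v ∈ S, ((q : ℤ) + 1) ≤ v.ord (H.s - algebraMap K F 0) := by
    intro v hv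
    have h1 := (hS v).mp hv
    rw [H.s_sub_zero] at h1 ⊢
    have h2 := H.ord_s_of_pos v h1
    have h3 : 0 < -v.ord H.X1 := by
      by_contra hcon
      push Not at hcon
      have : ((q : ℤ) + 1) * (-v.ord H.X1) ≤ 0 :=
        mul_nonpos_of_nonneg_of_nonpos (by positivity) hcon
      omega
    rw [h2]
    have : ((q : ℤ) + 1) * 1 ≤ ((q : ℤ) + 1) * (-v.ord H.X1) :=
      mul_le_mul_of_nonneg_left (by omega) (by positivity)
    linarith
  have hsum2 : (S.card : ℤ) * ((q : ℤ) + 1) ≤ (Module.finrank K⟮H.s⟯ F : ℤ) := by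
    rw [← hsum]
    have := Finset.card_nsmul_le_sum S (fun v => v.ord (H.s - algebraMap K F 0)) ((q : ℤ) + 1) hge
    simpa using this
  have hS1 : 1 ≤ S.card := by
    by_contra hcon
    have h0 : S.card = 0 := by omega
    rw [Finset.card_eq_zero] at h0
    rw [h0, Finset.sum_empty] at hsum
    have : (Module.finrank K⟮H.s⟯ F : ℤ) = 0 := hsum.symm
    omega
  have hle' : (Module.finrank K⟮H.s⟯ F : ℤ) ≤ (q : ℤ) + 1 := by exact_mod_cast hle
  have hS2 : (S.card : ℤ) * ((q : ℤ) + 1) ≤ (q : ℤ) + 1 := le_trans hsum2 hle'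
  have hq0 : (0 : ℤ) ≤ q := Int.natCast_nonneg q
  have hS3 : S.card ≤ 1 := by
    by_contra hcon
    have h2 : (2 : ℤ) ≤ S.card := by exact_mod_cast (by omega : 2 ≤ S.card)
    nlinarith
  have hS4 : S.card = 1 := le_antisymm hS3 hS1
  refine ⟨?_, by rw [hcard, hS4]⟩
  rw [hS4] at hsum2
  have : ((q : ℤ) + 1) ≤ (Module.finrank K⟮H.s⟯ F : ℤ) := by simpa using hsum2
  have h3 : q + 1 ≤ Module.finrank K⟮H.s⟯ F := by exact_mod_cast this
  omega

theorem finrank_eq : Module.finrank K⟮H.s⟯ F = q + 1 := (H.finrank_and_zero hq1).1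

theorem card_zero_fibre :
    Nat.card {v : Place K F // 0 < v.ord (H.s - algebraMap K F 0)} = 1 :=
  (H.finrank_and_zero hq1).2

/-- `s` has exactly one pole. -/
theorem card_pole_fibre : Nat.card {v : Place K F // v.ord H.s < 0} = 1 := by
  haveI := H.isSeparable hq1
  obtain ⟨S, hS, hsum⟩ := exists_finset_poles_of_separable H.s_transcendental
  rw [H.finrank_eq hq1] at hsum
  have hcard : Nat.card {v : Place K F // v.ord H.s < 0} = S.card := by
    rw [← Nat.card_eq_finsetCard S]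
    exact Nat.card_congr (Equiv.subtypeEquivRight fun v => (hS v).symm)
  have hge : ∀ v ∈ S, ((q : ℤ) + 1) ≤ -v.ord H.s := by
    intro v hv
    have h1 := (hS v).mp hv
    have h2 := H.ord_s_of_neg v h1
    have h3 : v.ord H.X1 + v.ord H.s < 0 := by
      by_contra hcon
      push Not at hcon
      have : 0 ≤ ((q : ℤ) + 1) * (v.ord H.X1 + v.ord H.s) :=
        mul_nonneg (by positivity) hcon
      omega
    have : ((q : ℤ) + 1) * (v.ord H.X1 + v.ord H.s) ≤ ((q : ℤ) + 1) * (-1) :=
      mul_le_mul_of_nonneg_left (by omega) (by positivity)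
    linarith
  have hsum2 : (S.card : ℤ) * ((q : ℤ) + 1) ≤ ((q + 1 : ℕ) : ℤ) := by
    rw [← hsum]
    have := Finset.card_nsmul_le_sum S (fun v => -v.ord H.s) ((q : ℤ) + 1) hge
    simpa using this
  have hS1 : 1 ≤ S.card := by
    by_contra hcon
    have h0 : S.card = 0 := by omega
    rw [Finset.card_eq_zero] at h0
    rw [h0, Finset.sum_empty] at hsum
    have : ((q + 1 : ℕ) : ℤ) = 0 := hsum.symm
    omega
  have hq0 : (0 : ℤ) ≤ q := Int.natCast_nonneg q
  have hS3 : S.card ≤ 1 := by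
    by_contra hcon
    have h2 : (2 : ℤ) ≤ S.card := by exact_mod_cast (by omega : 2 ≤ S.card)
    push_cast at hsum2
    nlinarith
  rw [hcard]
  omega

end Count

end HPCurve

end Fermat.Agent.HP
end
end MergeWrap_Lib_HP_Fibres

section MergeWrap_Lib_HP_One -- from Lib/HP/One.lean

set_option autoImplicit false
set_option linter.unusedSectionVars false
set_option linter.unusedVariables false
set_option linter.style.haveILetI false

/-!
# The curve `H_P`: the fibre over `s = 1`

* `q` even (`q = 2`): one place over `s = 1`, of ramification index `q + 1`;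
* `q` odd (and `2 ≠ 0` in `K`): two places, of ramification index `(q + 1) / 2`, separated by the
  function `Y = X₁^m (1 - s)^(m - 1)`, `m = (q + 1) / 2`, `Y² = c / s`.
-/

noncomputable section

open IntermediateField AlgebraicCurve Polynomial

namespace Fermat.Agent.HP

open Fermat.Agent.RR Fermat.Agent.RRHur

variable {K F : Type*} [Field K] [Field F] [Algebra K F] {q : ℕ}

/-- a transcendental element has a zero. -/
theorem hp_exists_zero (h : IsRRField K F) {x : F} (hx : Transcendental K x) :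
    ∃ v : Place K F, 0 < v.ord x := by
  have hx' : Transcendental K x⁻¹ := fun halg => hx (by simpa using halg.inv)
  obtain ⟨v, hv⟩ := exists_pole h hx'
  refine ⟨v, ?_⟩
  rw [one_lt_adicValuation_iff, Place.ord_inv] at hv
  omega

/-- a transcendental element takes every value. -/
theorem hp_exists_zero_sub (h : IsRRField K F) {x : F} (hx : Transcendental K x) (a : K) :
    ∃ v : Place K F, 0 < v.ord (x - algebraMap K F a) := by
  apply hp_exists_zero h
  intro halg
  apply hx
  have h2 : IsAlgebraic K (x - algebraMap K F a + algebraMap K F a) :=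
    halg.add (isAlgebraic_algebraMap a)
  simpa using h2

namespace HPCurve

variable (H : HPCurve K F q)

/-- every place of a fibre has order at most the degree. -/
theorem ord_le_finrank [IsAlgClosed K] (hq1 : ((q + 1 : ℕ) : K) ≠ 0) (c₀ : K) (v : Place K F)
    (hv : 0 < v.ord (H.s - algebraMap K F c₀)) :
    v.ord (H.s - algebraMap K F c₀) ≤ (q : ℤ) + 1 := by
  haveI := H.isSeparable hq1
  obtain ⟨S, hS, hsum⟩ := exists_finset_zeros_of_separable H.s_transcendental c₀
  rw [H.finrank_eq hq1] at hsum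
  have hvS : v ∈ S := (hS v).mpr hv
  have := Finset.single_le_sum (f := fun w => w.ord (H.s - algebraMap K F c₀))
    (fun w hw => ((hS w).mp hw).le) hvS
  rw [hsum] at this
  push_cast at this
  exact this

/-- the fibre over `c₀` has at most `q + 1` places, with equality iff unramified. -/
theorem card_fibre_le [IsAlgClosed K] (hq1 : ((q + 1 : ℕ) : K) ≠ 0) (c₀ : K) :
    Nat.card {v : Place K F // 0 < v.ord (H.s - algebraMap K F c₀)} ≤ q + 1 := by
  haveI := H.isSeparable hq1
  obtain ⟨S, hS, hsum⟩ := exists_finset_zeros_of_separable H.s_transcendental c₀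
  rw [H.finrank_eq hq1] at hsum
  have hcard : Nat.card {v : Place K F // 0 < v.ord (H.s - algebraMap K F c₀)} = S.card := by
    rw [← Nat.card_eq_finsetCard S]
    exact Nat.card_congr (Equiv.subtypeEquivRight fun v => (hS v).symm)
  rw [hcard]
  have := Finset.card_nsmul_le_sum S (fun v => v.ord (H.s - algebraMap K F c₀)) 1
    (fun v hv => (hS v).mp hv)
  rw [hsum] at this
  simp only [nsmul_eq_mul, mul_one] at this
  exact_mod_cast this

/-- `q` even: the ramification index over `s = 1` is `q + 1`. -/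
theorem ord_at_one_even [IsAlgClosed K] (hq1 : ((q + 1 : ℕ) : K) ≠ 0) (hq : Even q)
    (v : Place K F) (hv : 0 < v.ord (H.s - algebraMap K F 1)) :
    v.ord (H.s - algebraMap K F 1) = (q : ℤ) + 1 := by
  have h1 := H.ord_at_one v hv
  have h2 := H.ord_le_finrank hq1 1 v hv
  obtain ⟨r, hr⟩ := hq
  set e := v.ord (H.s - algebraMap K F 1) with he
  set a := v.ord H.X1 with ha
  -- 2 e = (2 r + 1) (a + e), so (a + e) is even: a + e = 2 t, e = (2 r + 1) t
  have hr' : (q : ℤ) = 2 * r := by rw [hr]; push_cast; ring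
  rw [hr'] at h1 h2 ⊢
  have h3 : (2 : ℤ) ∣ (a + e) := by
    have : (2 : ℤ) ∣ (2 * (r : ℤ) + 1) * (a + e) := ⟨e, h1.symm⟩
    have hcop : IsCoprime (2 : ℤ) (2 * (r : ℤ) + 1) := ⟨-(r : ℤ), 1, by ring⟩
    exact hcop.dvd_of_dvd_mul_left this
  obtain ⟨t, ht⟩ := h3
  rw [ht] at h1
  have h4 : e = (2 * (r : ℤ) + 1) * t := by linarith
  have hr0 : (0 : ℤ) ≤ r := Int.natCast_nonneg r
  have ht1 : 1 ≤ t := by
    by_contra hcon
    push Not at hcon
    have : (2 * (r : ℤ) + 1) * t ≤ 0 := mul_nonpos_of_nonneg_of_nonpos (by positivity) (by omega)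
    omega
  have ht2 : t ≤ 1 := by
    by_contra hcon
    push Not at hcon
    have : (2 * (r : ℤ) + 1) * 2 ≤ (2 * (r : ℤ) + 1) * t :=
      mul_le_mul_of_nonneg_left (by omega) (by positivity)
    omega
  have ht3 : t = 1 := le_antisymm ht2 ht1
  rw [h4, ht3, mul_one]

/-- `q` even: exactly one place over `s = 1`. -/
theorem card_one_fibre_even [IsAlgClosed K] (hq1 : ((q + 1 : ℕ) : K) ≠ 0) (hq : Even q) :
    Nat.card {v : Place K F // 0 < v.ord (H.s - algebraMap K F 1)} = 1 := by
  haveI := H.isSeparable hq1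
  obtain ⟨S, hS, hsum⟩ := exists_finset_zeros_of_separable H.s_transcendental (1 : K)
  rw [H.finrank_eq hq1] at hsum
  have hcard : Nat.card {v : Place K F // 0 < v.ord (H.s - algebraMap K F 1)} = S.card := by
    rw [← Nat.card_eq_finsetCard S]
    exact Nat.card_congr (Equiv.subtypeEquivRight fun v => (hS v).symm)
  rw [hcard]
  have h1 : ∑ v ∈ S, v.ord (H.s - algebraMap K F 1) = ∑ v ∈ S, ((q : ℤ) + 1) :=
    Finset.sum_congr rfl fun v hv => H.ord_at_one_even hq1 hq v ((hS v).mp hv)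
  rw [h1, Finset.sum_const, nsmul_eq_mul] at hsum
  push_cast at hsum
  have hq0 : (0 : ℤ) ≤ q := Int.natCast_nonneg q
  have h2 : (S.card : ℤ) = 1 := by
    have h3 : ((S.card : ℤ) - 1) * ((q : ℤ) + 1) = 0 := by linarith
    rcases mul_eq_zero.mp h3 with h4 | h4
    · linarith
    · omega
  exact_mod_cast h2

section Odd

/-- `m = (q + 1) / 2`. -/
def m (_H : HPCurve K F q) : ℕ := (q + 1) / 2

theorem two_mul_m (hq : Odd q) : 2 * H.m = q + 1 := by
  obtain ⟨r, hr⟩ := hq
  unfold m
  omega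

theorem m_pos (hq : Odd q) : 1 ≤ H.m := by
  have := H.two_mul_m hq
  omega

/-- the function `Y = X₁^m (1 - s)^(m - 1)`. -/
def Y : F := H.X1 ^ H.m * (1 - H.s) ^ (H.m - 1)

theorem Y_sq (hq : Odd q) : H.Y ^ 2 * H.s = algebraMap K F H.c := by
  have h1 := H.two_mul_m hq
  have h2 := H.m_pos hq
  have hq2 := H.q_two
  rw [← H.rel_s]
  unfold Y
  have e1 : q + 1 = H.m * 2 := by omega
  have e2 : q - 1 = (H.m - 1) * 2 := by omega
  rw [e1, e2, pow_mul, pow_mul]
  ring

theorem Y_ne (hq : Odd q) : H.Y ≠ 0 := by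
  intro h
  have := H.Y_sq hq
  rw [h] at this
  simp at this
  exact H.algebraMap_c_ne this.symm

theorem Y_transcendental [IsAlgClosed K] (hq : Odd q) : Transcendental K H.Y := by
  intro halg
  apply H.s_transcendental
  have h1 : H.s = algebraMap K F H.c * (H.Y ^ 2)⁻¹ := by
    rw [← H.Y_sq hq]
    field_simp [H.Y_ne hq]
  rw [h1]
  exact (isAlgebraic_algebraMap H.c).mul (halg.pow 2).inv

/-- `q` odd: the ramification index over `s = 1` is `m`-divisible. -/
theorem ord_at_one_odd (hq : Odd q) (v : Place K F)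
    (hv : 0 < v.ord (H.s - algebraMap K F 1)) :
    v.ord (H.s - algebraMap K F 1) =
      (H.m : ℤ) * (v.ord H.X1 + v.ord (H.s - algebraMap K F 1)) := by
  have h1 := H.ord_at_one v hv
  have h2 : ((q : ℤ) + 1) = 2 * (H.m : ℤ) := by
    have := H.two_mul_m hq
    exact_mod_cast this.symm
  rw [h2] at h1
  linarith

theorem m_le_ord_at_one (hq : Odd q) (v : Place K F)
    (hv : 0 < v.ord (H.s - algebraMap K F 1)) :
    (H.m : ℤ) ≤ v.ord (H.s - algebraMap K F 1) := by
  have h1 := H.ord_at_one_odd hq v hv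
  have hm : (0 : ℤ) ≤ (H.m : ℤ) := Int.natCast_nonneg _
  have h3 : 1 ≤ v.ord H.X1 + v.ord (H.s - algebraMap K F 1) := by
    by_contra hcon
    push Not at hcon
    have : (H.m : ℤ) * (v.ord H.X1 + v.ord (H.s - algebraMap K F 1)) ≤ 0 :=
      mul_nonpos_of_nonneg_of_nonpos hm (by omega)
    omega
  calc (H.m : ℤ) = (H.m : ℤ) * 1 := (mul_one _).symm
    _ ≤ (H.m : ℤ) * (v.ord H.X1 + v.ord (H.s - algebraMap K F 1)) :=
        mul_le_mul_of_nonneg_left h3 hm
    _ = _ := h1.symm

/-- a zero of `Y - γ`, `γ² = c`, lies over `s = 1`. -/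
theorem pos_ord_of_Y (hq : Odd q) {γ : K} (hγ : γ ^ 2 = H.c) (v : Place K F)
    (hv : 0 < v.ord (H.Y - algebraMap K F γ)) :
    0 < v.ord (H.s - algebraMap K F 1) := by
  have hγ0 : γ ≠ 0 := by
    intro h
    rw [h] at hγ
    exact H.c_ne (by rw [← hγ]; ring)
  -- Y is a unit at v
  have hY0 : v.ord H.Y = 0 := by
    have := ord_sub_const_eq_zero v (c := γ) (c' := 0) hγ0 hv
    rwa [map_zero, sub_zero] at this
  -- ord s = 0
  have hs0 : v.ord H.s = 0 := by
    have h1 := congrArg v.ord (H.Y_sq hq)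
    rw [Fermat.Agent.S24Res.ord_algebraMap, v.ord_mul (pow_ne_zero _ (H.Y_ne hq)) H.s_ne,
      hp_ord_pow, hY0] at h1
    simpa using h1
  -- Y^2 - c = c (1 - s) / s  has positive order
  have hfac : (H.Y - algebraMap K F γ) * (H.Y + algebraMap K F γ) * H.s =
      algebraMap K F H.c * (1 - H.s) := by
    have h1 := H.Y_sq hq
    have h2 : algebraMap K F γ ^ 2 = algebraMap K F H.c := by rw [← map_pow, hγ]
    have : (H.Y - algebraMap K F γ) * (H.Y + algebraMap K F γ) * H.s =
        H.Y ^ 2 * H.s - algebraMap K F γ ^ 2 * H.s := by ring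
    rw [this, h1, h2]
    ring
  have hYm : H.Y - algebraMap K F γ ≠ 0 := by
    intro h
    rw [h] at hv
    simp at hv
  by_cases hYp : H.Y + algebraMap K F γ = 0
  · -- then c (1 - s) = 0: impossible
    rw [hYp, mul_zero, zero_mul] at hfac
    exact absurd hfac.symm (mul_ne_zero H.algebraMap_c_ne H.one_sub_s_ne)
  have hYp0 : 0 ≤ v.ord (H.Y + algebraMap K F γ) := by
    have h1 : H.Y + algebraMap K F γ = H.Y - algebraMap K F (-γ) := by
      rw [map_neg, sub_neg_eq_add]
    rw [h1]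
    by_cases hγγ : γ = -γ
    · rw [← hγγ]; exact hv.le
    · exact (ord_sub_const_eq_zero v (c := γ) (c' := -γ) hγγ hv).ge
  have h3 := congrArg v.ord hfac
  rw [v.ord_mul (mul_ne_zero hYm hYp) H.s_ne, v.ord_mul hYm hYp, hs0,
    v.ord_mul H.algebraMap_c_ne H.one_sub_s_ne, Fermat.Agent.S24Res.ord_algebraMap,
    H.ord_one_sub_s] at h3
  omega

/-- `q` odd, `2 ≠ 0`: exactly two places over `s = 1`. -/
theorem card_one_fibre_odd [IsAlgClosed K] (hq1 : ((q + 1 : ℕ) : K) ≠ 0) (hq : Odd q)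
    (h2 : (2 : K) ≠ 0) :
    Nat.card {v : Place K F // 0 < v.ord (H.s - algebraMap K F 1)} = 2 := by
  classical
  haveI := H.isSeparable hq1
  have hRR := H.isRRField hq1
  obtain ⟨S, hS, hsum⟩ := exists_finset_zeros_of_separable H.s_transcendental (1 : K)
  rw [H.finrank_eq hq1] at hsum
  have hcard : Nat.card {v : Place K F // 0 < v.ord (H.s - algebraMap K F 1)} = S.card := by
    rw [← Nat.card_eq_finsetCard S]
    exact Nat.card_congr (Equiv.subtypeEquivRight fun v => (hS v).symm)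
  rw [hcard]
  -- upper bound
  have hm := H.two_mul_m hq
  have hmpos := H.m_pos hq
  have hle : S.card ≤ 2 := by
    have h1 := Finset.card_nsmul_le_sum S (fun v => v.ord (H.s - algebraMap K F 1)) (H.m : ℤ)
      (fun v hv => H.m_le_ord_at_one hq v ((hS v).mp hv))
    rw [hsum, nsmul_eq_mul] at h1
    have h3 : (S.card : ℤ) * (H.m : ℤ) ≤ 2 * (H.m : ℤ) := by
      have : ((q + 1 : ℕ) : ℤ) = 2 * (H.m : ℤ) := by exact_mod_cast hm.symm
      linarith
    have h4 : (S.card : ℤ) ≤ 2 := le_of_mul_le_mul_right h3 (by exact_mod_cast hmpos)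
    exact_mod_cast h4
  -- two distinct places
  obtain ⟨γ, hγ⟩ := IsAlgClosed.exists_pow_nat_eq H.c (n := 2) (by norm_num)
  have hγ0 : γ ≠ 0 := by
    intro h
    rw [h] at hγ
    exact H.c_ne (by rw [← hγ]; ring)
  have hγ' : (-γ) ^ 2 = H.c := by rw [neg_sq]; exact hγ
  have hγγ : γ ≠ -γ := by
    intro h
    have : (2 : K) * γ = 0 := by linear_combination h
    rcases mul_eq_zero.mp this with h3 | h3
    · exact h2 h3
    · exact hγ0 h3
  obtain ⟨v₁, hv₁⟩ := hp_exists_zero_sub hRR (H.Y_transcendental hq) γ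
  obtain ⟨v₂, hv₂⟩ := hp_exists_zero_sub hRR (H.Y_transcendental hq) (-γ)
  have hne : v₁ ≠ v₂ := by
    intro h
    rw [← h] at hv₂
    have := ord_sub_const_eq_zero v₁ (c := γ) (c' := -γ) hγγ hv₁
    omega
  have hv₁S : v₁ ∈ S := (hS v₁).mpr (H.pos_ord_of_Y hq hγ v₁ hv₁)
  have hv₂S : v₂ ∈ S := (hS v₂).mpr (H.pos_ord_of_Y hq hγ' v₂ hv₂)
  have hge : 2 ≤ S.card := by
    have hsub : ({v₁, v₂} : Finset (Place K F)) ⊆ S := by
      intro w hw
      rw [Finset.mem_insert, Finset.mem_singleton] at hw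
      rcases hw with rfl | rfl
      · exact hv₁S
      · exact hv₂S
    have := Finset.card_le_card hsub
    rwa [Finset.card_pair hne] at this
  omega

end Odd

end HPCurve

end Fermat.Agent.HP
end
end MergeWrap_Lib_HP_One

section MergeWrap_Lib_HP_Aut -- from Lib/HP/Aut.lean

set_option autoImplicit false
set_option linter.unusedSectionVars false
set_option linter.unusedVariables false
set_option linter.style.haveILetI false

/-!
# The curve `H_P`: the automorphisms `σ_η`, `η^(q+1) = 1`, and the unramified fibres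

`σ_η : F →ₐ[K(s)] F`, `X₁ ↦ η X₁` (hence `X₂ ↦ η X₂`, `s ↦ s`).  Transporting one place over
`s = c₀` (`c₀ ≠ 0, 1`) by the `σ_η` gives `q + 1` distinct places over `c₀`: the fibre is
unramified.
-/

noncomputable section

open IntermediateField AlgebraicCurve Polynomial

namespace Fermat.Agent.HP

open Fermat.Agent.RR Fermat.Agent.RRHur

variable {K F : Type*} [Field K] [Field F] [Algebra K F] {q : ℕ}

namespace HPCurve

variable (H : HPCurve K F q)

section Aut

variable [IsAlgClosed K] (hq1 : ((q + 1 : ℕ) : K) ≠ 0)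

include hq1 in
theorem natDegree_minpoly_X1 : (minpoly K⟮H.s⟯ H.X1).natDegree = q + 1 := by
  rw [← IntermediateField.adjoin.finrank H.isIntegral_X1, ← H.finrank_eq hq1]
  have h1 : Module.finrank K⟮H.s⟯ (IntermediateField.adjoin K⟮H.s⟯ {H.X1}) =
      Module.finrank K⟮H.s⟯ (⊤ : IntermediateField K⟮H.s⟯ F) := by
    rw [H.adjoin_X1_eq_top]
  rw [h1]
  exact IntermediateField.finrank_top'

include hq1 in
/-- the minimal polynomial of `X₁` over `K(s)` is the Kummer polynomial. -/
theorem minpoly_X1 : minpoly K⟮H.s⟯ H.X1 = H.kummerPoly :=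
  (eq_of_monic_of_dvd_of_natDegree_le (minpoly.monic H.isIntegral_X1) H.kummerPoly_monic
    (minpoly.dvd _ _ H.aeval_kummerPoly)
    (by rw [H.natDegree_minpoly_X1 hq1, H.kummerPoly_natDegree])).symm

/-- `K(s)(X₁) ≃ F`. -/
def adjEquiv : (IntermediateField.adjoin K⟮H.s⟯ {H.X1}) ≃ₐ[K⟮H.s⟯] F :=
  (IntermediateField.equivOfEq H.adjoin_X1_eq_top).trans IntermediateField.topEquiv

theorem adjEquiv_apply (x : IntermediateField.adjoin K⟮H.s⟯ {H.X1}) :
    H.adjEquiv x = (x : F) := rfl

theorem adjEquiv_symm_X1 :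
    H.adjEquiv.symm H.X1 = IntermediateField.AdjoinSimple.gen K⟮H.s⟯ H.X1 := by
  apply H.adjEquiv.injective
  rw [AlgEquiv.apply_symm_apply, H.adjEquiv_apply]
  rfl

include hq1 in
theorem aeval_eta_X1 (η : K) (hη : η ^ (q + 1) = 1) :
    aeval (algebraMap K F η * H.X1)
      (minpoly K⟮H.s⟯ (IntermediateField.adjoin.powerBasis H.isIntegral_X1).gen) = 0 := by
  rw [IntermediateField.adjoin.powerBasis_gen, IntermediateField.minpoly_gen, H.minpoly_X1 hq1]
  unfold kummerPoly
  simp only [map_sub, map_pow, aeval_X, aeval_C]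
  rw [mul_pow, ← map_pow, hη, map_one, one_mul, H.X1_pow_eq_u, sub_eq_zero]
  rfl

/-- the automorphism `σ_η` (as an algebra homomorphism over `K(s)`). -/
def autHom (η : K) (hη : η ^ (q + 1) = 1) : F →ₐ[K⟮H.s⟯] F :=
  ((IntermediateField.adjoin.powerBasis H.isIntegral_X1).lift (algebraMap K F η * H.X1)
    (H.aeval_eta_X1 hq1 η hη)).comp H.adjEquiv.symm.toAlgHom

theorem autHom_X1 (η : K) (hη : η ^ (q + 1) = 1) :
    H.autHom hq1 η hη H.X1 = algebraMap K F η * H.X1 := by
  unfold autHom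
  rw [AlgHom.comp_apply]
  have h1 : H.adjEquiv.symm.toAlgHom H.X1 =
      (IntermediateField.adjoin.powerBasis H.isIntegral_X1).gen := by
    rw [IntermediateField.adjoin.powerBasis_gen]
    exact H.adjEquiv_symm_X1
  rw [h1, PowerBasis.lift_gen]

theorem autHom_s (η : K) (hη : η ^ (q + 1) = 1) : H.autHom hq1 η hη H.s = H.s := by
  exact (H.autHom hq1 η hη).commutes ⟨H.s, H.s_mem⟩

/-- `σ_η` as a `K`-algebra homomorphism. -/
def autK (η : K) (hη : η ^ (q + 1) = 1) : F →ₐ[K] F :=
  (H.autHom hq1 η hη).restrictScalars K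

theorem autK_apply (η : K) (hη : η ^ (q + 1) = 1) (x : F) :
    H.autK hq1 η hη x = H.autHom hq1 η hη x := rfl

theorem autK_X1 (η : K) (hη : η ^ (q + 1) = 1) :
    H.autK hq1 η hη H.X1 = algebraMap K F η * H.X1 := H.autHom_X1 hq1 η hη

theorem autK_s (η : K) (hη : η ^ (q + 1) = 1) : H.autK hq1 η hη H.s = H.s :=
  H.autHom_s hq1 η hη

theorem autK_X2 (η : K) (hη : η ^ (q + 1) = 1) :
    H.autK hq1 η hη H.X2 = algebraMap K F η * H.X2 := by
  rw [H.X2_eq, map_mul, H.autK_s, H.autK_X1]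
  ring

theorem autHom_bijective (η : K) (hη : η ^ (q + 1) = 1) :
    Function.Bijective (H.autHom hq1 η hη) := by
  have hinj : Function.Injective (H.autHom hq1 η hη) := (H.autHom hq1 η hη).toRingHom.injective
  refine ⟨hinj, ?_⟩
  have : Function.Injective (H.autHom hq1 η hη).toLinearMap := hinj
  exact (LinearMap.injective_iff_surjective).mp this

theorem autK_isIntegral (η : K) (hη : η ^ (q + 1) = 1) :
    (H.autK hq1 η hη).toRingHom.IsIntegral :=
  RingHom.isIntegral_of_surjective _ (H.autHom_bijective hq1 η hη).2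

/-- `σ_η` as an algebra automorphism. -/
def autEquiv (η : K) (hη : η ^ (q + 1) = 1) : F ≃ₐ[K] F :=
  AlgEquiv.ofBijective (H.autK hq1 η hη) (H.autHom_bijective hq1 η hη)

theorem autEquiv_apply (η : K) (hη : η ^ (q + 1) = 1) (x : F) :
    H.autEquiv hq1 η hη x = H.autK hq1 η hη x := rfl

end Aut

section Unram

variable [IsAlgClosed K] (hq1 : ((q + 1 : ℕ) : K) ≠ 0)

/-- the translate of a place by `σ_η`. -/
def movePlace (η : K) (hη : η ^ (q + 1) = 1) (v : Place K F) : Place K F :=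
  v.restrictAlong (H.autK hq1 η hη) (H.autK_isIntegral hq1 η hη)

theorem pos_ord_movePlace (η : K) (hη : η ^ (q + 1) = 1) (v : Place K F) {f : F}
    (hf : 0 < v.ord (H.autK hq1 η hη f)) : 0 < (H.movePlace hq1 η hη v).ord f := by
  have h1 := Place.ord_restrictAlong (H.autK hq1 η hη) (H.autK_isIntegral hq1 η hη) v f
  rw [h1] at hf
  by_contra hcon
  push Not at hcon
  have : ((Place.ramificationIndexAlong (H.autK hq1 η hη) v : ℕ) : ℤ) *
      (v.restrictAlong (H.autK hq1 η hη) (H.autK_isIntegral hq1 η hη)).ord f ≤ 0 :=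
    mul_nonpos_of_nonneg_of_nonpos (Int.natCast_nonneg _) hcon
  omega

theorem movePlace_mem_fibre (η : K) (hη : η ^ (q + 1) = 1) (v : Place K F) (c₀ : K)
    (hv : 0 < v.ord (H.s - algebraMap K F c₀)) :
    0 < (H.movePlace hq1 η hη v).ord (H.s - algebraMap K F c₀) := by
  apply H.pos_ord_movePlace
  rw [map_sub, H.autK_s, AlgHom.commutes]
  exact hv

theorem movePlace_X1 (η : K) (hη : η ^ (q + 1) = 1) (v : Place K F) (α : K)
    (hv : 0 < v.ord (H.X1 - algebraMap K F α)) :
    0 < (H.movePlace hq1 η hη v).ord (H.X1 - algebraMap K F (η * α)) := by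
  apply H.pos_ord_movePlace
  have hη0 : η ≠ 0 := by
    intro h
    rw [h, zero_pow (by omega)] at hη
    exact zero_ne_one hη
  have h1 : H.autK hq1 η hη (H.X1 - algebraMap K F (η * α)) =
      algebraMap K F η * (H.X1 - algebraMap K F α) := by
    rw [map_sub, H.autK_X1, AlgHom.commutes, map_mul]
    ring
  rw [h1]
  by_cases h0 : H.X1 - algebraMap K F α = 0
  · rw [h0] at hv; simp at hv
  rw [v.ord_mul ((map_ne_zero_iff _ (algebraMap K F).injective).mpr hη0) h0,
    Fermat.Agent.S24Res.ord_algebraMap, zero_add]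
  exact hv

include hq1 in
/-- **the fibres over `c₀ ≠ 0, 1` are unramified.** -/
theorem card_fibre_of_ne (c₀ : K) (hc0 : c₀ ≠ 0) (hc1 : c₀ ≠ 1) :
    Nat.card {v : Place K F // 0 < v.ord (H.s - algebraMap K F c₀)} = q + 1 := by
  classical
  apply le_antisymm (H.card_fibre_le hq1 c₀)
  have hRR := H.isRRField hq1
  obtain ⟨v, hv⟩ := hp_exists_zero_sub hRR H.s_transcendental c₀
  have hX1 : v.ord H.X1 = 0 := H.ord_X1_of_zero_ne v hc0 hc1 hv
  obtain ⟨α, hα⟩ := exists_const_sub hRR v hX1.ge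
  have hα' : 0 < v.ord (H.X1 - algebraMap K F α) := by
    rcases hα with hα | hα
    · exact absurd (hα ▸ isAlgebraic_algebraMap α) H.transc
    · exact hα
  have hα0 : α ≠ 0 := by
    intro h
    rw [h, map_zero, sub_zero] at hα'
    omega
  haveI : NeZero ((q + 1 : ℕ) : K) := ⟨hq1⟩
  obtain ⟨ζ, hζ⟩ := HasEnoughRootsOfUnity.exists_primitiveRoot K (q + 1)
  have hR := hζ.card_nthRootsFinset
  haveI : Finite {v : Place K F // 0 < v.ord (H.s - algebraMap K F c₀)} :=
    finite_zeroFibre hRR H.s_transcendental c₀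
  have hmem : ∀ η : nthRootsFinset (q + 1) (1 : K), (η : K) ^ (q + 1) = 1 := fun η =>
    (mem_nthRootsFinset (by omega) 1).mp η.2
  let Φ : nthRootsFinset (q + 1) (1 : K) →
      {v : Place K F // 0 < v.ord (H.s - algebraMap K F c₀)} := fun η =>
    ⟨H.movePlace hq1 η (hmem η) v, H.movePlace_mem_fibre hq1 η (hmem η) v c₀ hv⟩
  have hΦ : Function.Injective Φ := by
    intro η η' h
    have h1 : H.movePlace hq1 η (hmem η) v = H.movePlace hq1 η' (hmem η') v :=
      congrArg Subtype.val h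
    have h2 := H.movePlace_X1 hq1 η (hmem η) v α hα'
    have h3 := H.movePlace_X1 hq1 η' (hmem η') v α hα'
    rw [← h1] at h3
    by_contra hne
    have hne' : (η : K) * α ≠ (η' : K) * α := by
      intro h4
      exact hne (Subtype.ext (mul_right_cancel₀ hα0 h4))
    have := ord_sub_const_eq_zero _ hne' h2
    omega
  have := Nat.card_le_card_of_injective Φ hΦ
  rw [Nat.card_eq_finsetCard, hR] at this
  exact this

end Unram

end HPCurve

end Fermat.Agent.HP
end
end MergeWrap_Lib_HP_Aut
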