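import Mathlib
import Fermat.Agent.MU.Lib.HP.Deg
import Fermat.Agent.MU.Lib.GoodRed.Small.GenusZero

section MergeWrap_Lib_HP_YFun -- from Lib/HP/YFun.lean

set_option autoImplicit false
set_option linter.unusedSectionVars false
set_option linter.unusedVariables false
set_option linter.style.haveILetI false

/-!
# The curve `H_P`: the function `Y = X₁^q + c / X₁`

* `H.Yf = X₁^q + c / X₁`; in characteristic `q`: `H.Yf = X₂^q + c / X₂` (`Yf_eq_X2`);
* orders of `Y` (`ord_Yf_of_neg`, `ord_Yf_of_pos`, `ord_Yf_nonneg`, `ord_Yf_pInf`, `ord_Yf_pZero`);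
* `Y` is transcendental, `poleDiv Y = q • poleDiv X₁ + q • pZero`, **`[F : K(Y)] = q (q + 1)`**
  (`finrank_Yf`), also over an abstract copy `E₀` of `K(Y)` (`finrank_of_gen_Yf`).
-/

noncomputable section

open IntermediateField AlgebraicCurve Polynomial

namespace Fermat.Agent.HP

open Fermat.Agent.RR Fermat.Agent.RRHur Fermat.Agent.GoodRedSmall

variable {K F : Type*} [Field K] [Field F] [Algebra K F] {q : ℕ}

namespace HPCurve

variable (H : HPCurve K F q)

/-- the function `Y = X₁^q + c / X₁`. -/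
def Yf : F := H.X1 ^ q + algebraMap K F H.c / H.X1

theorem Yf_mul_X1 : H.Yf * H.X1 = H.X1 ^ (q + 1) + algebraMap K F H.c := by
  unfold Yf
  have := H.X1_ne
  field_simp
  ring

theorem X1_sub_X2_ne' : H.X1 - H.X2 ≠ 0 := by
  intro h
  have hrel := H.rel
  rw [h, zero_pow (by have := H.q_two; omega), mul_zero] at hrel
  exact H.algebraMap_c_ne hrel.symm

/-- in characteristic `q` the two expressions for `Y` agree. -/
theorem Yf_eq_X2 (hq : q.Prime) [CharP K q] :
    H.Yf = H.X2 ^ q + algebraMap K F H.c / H.X2 := by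
  haveI : Fact q.Prime := ⟨hq⟩
  haveI : CharP F q := charP_of_injective_algebraMap (algebraMap K F).injective q
  have h1 : (H.X1 - H.X2) ^ q = H.X1 ^ q - H.X2 ^ q := sub_pow_char H.X1 H.X2
  have h2 : (H.X1 - H.X2) ^ q = (H.X1 - H.X2) * (H.X1 - H.X2) ^ (q - 1) := by
    rw [← pow_succ']
    congr 1
    have := H.q_two
    omega
  have h3 : (H.X1 - H.X2) ^ (q - 1) = algebraMap K F H.c / (H.X1 * H.X2) := by
    rw [eq_div_iff (mul_ne_zero H.X1_ne H.X2_ne), ← H.rel]
    ring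
  have hX1 := H.X1_ne
  have hX2 := H.X2_ne
  unfold Yf
  have h4 : H.X1 ^ q - H.X2 ^ q = algebraMap K F H.c / H.X2 - algebraMap K F H.c / H.X1 := by
    rw [← h1, h2, h3]
    field_simp
  have h5 : H.X1 ^ q = H.X2 ^ q + (algebraMap K F H.c / H.X2 - algebraMap K F H.c / H.X1) := by
    rw [← h4]; ring
  rw [h5]
  ring

theorem ord_c_div_X1 (v : Place K F) : v.ord (algebraMap K F H.c / H.X1) = -v.ord H.X1 := by
  rw [div_eq_mul_inv, v.ord_mul H.algebraMap_c_ne (inv_ne_zero H.X1_ne), v.ord_inv,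
    Fermat.Agent.S24Res.ord_algebraMap, zero_add]

theorem ord_Yf_of_neg (v : Place K F) (hv : v.ord H.X1 < 0) :
    v.ord H.Yf = (q : ℤ) * v.ord H.X1 := by
  unfold Yf
  have hq := H.q_two
  have h1 : v.ord (H.X1 ^ q) = (q : ℤ) * v.ord H.X1 := hp_ord_pow v _ q
  have h2 := H.ord_c_div_X1 v
  have hlt : v.ord (H.X1 ^ q) < v.ord (algebraMap K F H.c / H.X1) := by
    rw [h1, h2]
    have : (2 : ℤ) ≤ (q : ℤ) := by exact_mod_cast hq
    nlinarith
  rw [ord_add_eq_of_lt v (pow_ne_zero _ H.X1_ne)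
    (div_ne_zero H.algebraMap_c_ne H.X1_ne) hlt, h1]

theorem ord_Yf_of_pos (v : Place K F) (hv : 0 < v.ord H.X1) :
    v.ord H.Yf = -v.ord H.X1 := by
  unfold Yf
  have hq := H.q_two
  have h1 : v.ord (H.X1 ^ q) = (q : ℤ) * v.ord H.X1 := hp_ord_pow v _ q
  have h2 := H.ord_c_div_X1 v
  have hlt : v.ord (algebraMap K F H.c / H.X1) < v.ord (H.X1 ^ q) := by
    rw [h1, h2]
    have : (2 : ℤ) ≤ (q : ℤ) := by exact_mod_cast hq
    nlinarith
  rw [add_comm, ord_add_eq_of_lt v (div_ne_zero H.algebraMap_c_ne H.X1_ne)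
    (pow_ne_zero _ H.X1_ne) hlt, h2]

theorem Yf_ne : H.Yf ≠ 0 := by
  intro h
  have h1 := H.Yf_mul_X1
  rw [h, zero_mul] at h1
  apply H.transc
  refine ⟨X ^ (q + 1) + C H.c, ?_, ?_⟩
  · intro h0
    have := congrArg (fun p => p.coeff (q + 1)) h0
    simp [coeff_X_pow] at this
  · simp [← h1]

theorem ord_Yf_nonneg (v : Place K F) (hv : v.ord H.X1 = 0) : 0 ≤ v.ord H.Yf := by
  have h1 : v.ord (H.X1 ^ q) = 0 := by rw [hp_ord_pow, hv, mul_zero]
  have h2 : v.ord (algebraMap K F H.c / H.X1) = 0 := by rw [H.ord_c_div_X1, hv, neg_zero]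
  have h3 := Fermat.Agent.S24Res.ord_add_ge v (pow_ne_zero q H.X1_ne)
    (div_ne_zero H.algebraMap_c_ne H.X1_ne) H.Yf_ne
  rw [h1, h2, min_self] at h3
  exact h3

section Deg

variable [IsAlgClosed K] (hq1 : ((q + 1 : ℕ) : K) ≠ 0)

theorem ord_Yf_pInf : (H.pInf hq1).ord H.Yf = -(q : ℤ) := by
  rw [H.ord_Yf_of_neg _ (by rw [H.ord_X1_pInf hq1]; omega), H.ord_X1_pInf hq1]
  ring

theorem ord_Yf_pZero : (H.pZero hq1).ord H.Yf = -(q : ℤ) := by
  have hq := H.q_two
  rw [H.ord_Yf_of_pos _ (by rw [H.ord_X1_pZero hq1]; exact_mod_cast (by omega : 0 < q)),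
    H.ord_X1_pZero hq1]

include hq1 in
theorem Yf_transcendental : Transcendental K H.Yf := by
  apply Fermat.Agent.S24Res.transcendental_of_ord_ne_zero (H.pInf hq1)
  rw [H.ord_Yf_pInf hq1]
  have := H.q_two
  have : (q : ℤ) ≠ 0 := by exact_mod_cast (by omega : q ≠ 0)
  omega

include hq1 in
theorem finiteDimensional_Yf : FiniteDimensional K⟮H.Yf⟯ F :=
  Fermat.Agent.S24Res.finiteDimensional_adjoin_simple H.isFunctionFieldOver_s
    (H.Yf_transcendental hq1)

/-- the pole divisor of `Y`. -/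
theorem poleDiv_Yf :
    poleDiv (H.isRRField hq1) H.Yf =
      (q : ℤ) • poleDiv (H.isRRField hq1) H.X1 + Finsupp.single (H.pZero hq1) (q : ℤ) := by
  have hq := H.q_two
  have hq0 : (0 : ℤ) < (q : ℤ) := by exact_mod_cast (by omega : 0 < q)
  ext v
  rw [Finsupp.add_apply, Finsupp.smul_apply, poleDiv_apply, poleDiv_apply, smul_eq_mul]
  rcases lt_trichotomy (v.ord H.X1) 0 with hneg | hzero | hpos
  · have hne : v ≠ H.pZero hq1 := by
      intro h
      rw [h, H.ord_X1_pZero hq1] at hneg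
      omega
    rw [Finsupp.single_eq_of_ne hne, add_zero, H.ord_Yf_of_neg v hneg,
      max_eq_left (by nlinarith), max_eq_left (by omega)]
    ring
  · have hne : v ≠ H.pZero hq1 := by
      intro h
      rw [h, H.ord_X1_pZero hq1] at hzero
      omega
    rw [Finsupp.single_eq_of_ne hne, add_zero, hzero, neg_zero, max_self, mul_zero]
    exact max_eq_right (by have := H.ord_Yf_nonneg v hzero; omega)
  · have hv : v = H.pZero hq1 := (H.ord_X1_pos_iff hq1 v).mp hpos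
    rw [hv, Finsupp.single_eq_same, H.ord_Yf_pZero hq1, H.ord_X1_pZero hq1, neg_neg,
      max_eq_left hq0.le, max_eq_right (by omega), mul_zero, zero_add]

include hq1 in
/-- **`[F : K(Y)] = q (q + 1)`.** -/
theorem finrank_Yf : Module.finrank K⟮H.Yf⟯ F = q * (q + 1) := by
  haveI := H.finiteDimensional_Yf hq1
  haveI := H.finiteDimensional_X1
  have h1 := degree_poleDiv_eq_finrank (H.isRRField hq1) (H.Yf_transcendental hq1)
  have h2 := degree_poleDiv_eq_finrank (H.isRRField hq1) H.transc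
  rw [H.poleDiv_Yf hq1, map_add, map_zsmul, h2, degree_single_one (H.isRRField hq1),
    H.finrank_X1 hq1] at h1
  have h3 : ((Module.finrank K⟮H.Yf⟯ F : ℕ) : ℤ) = ((q * (q + 1) : ℕ) : ℤ) := by
    rw [← h1]
    push_cast
    rw [smul_eq_mul]
    ring
  exact_mod_cast h3

end Deg

end HPCurve

/-- the degree over an abstract copy `E₀` of the rational subfield `K(y)`. -/
theorem hp_finrank_of_gen {E₀ : Type*} [Field E₀] [Algebra K E₀] [Algebra E₀ F]
    [IsScalarTower K E₀ F] {y : E₀} (hgen : K⟮y⟯ = ⊤) :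
    Module.finrank E₀ F = Module.finrank K⟮algebraMap E₀ F y⟯ F := by
  let φ : E₀ →ₐ[K] F := IsScalarTower.toAlgHom K E₀ F
  have hrange : φ.fieldRange = K⟮algebraMap E₀ F y⟯ := by
    rw [AlgHom.fieldRange_eq_map, ← hgen, IntermediateField.adjoin_map, Set.image_singleton]
    rfl
  let i : E₀ ≃ₐ[K] K⟮algebraMap E₀ F y⟯ :=
    (AlgEquiv.ofInjectiveField φ).trans (IntermediateField.equivOfEq hrange)
  refine Algebra.finrank_eq_of_equiv_equiv i.toRingEquiv (RingEquiv.refl F) ?_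
  ext x
  rfl

namespace HPCurve

variable (H : HPCurve K F q)

/-- **`[F : E₀] = q (q + 1)`** for an abstract copy `E₀ = K(y)` of `K(Y)`. -/
theorem finrank_of_gen_Yf [IsAlgClosed K] (hq1 : ((q + 1 : ℕ) : K) ≠ 0)
    {E₀ : Type*} [Field E₀] [Algebra K E₀] [Algebra E₀ F]
    [IsScalarTower K E₀ F] {y : E₀} (hgen : K⟮y⟯ = ⊤) (hy : algebraMap E₀ F y = H.Yf) :
    Module.finrank E₀ F = q * (q + 1) := by
  rw [hp_finrank_of_gen hgen, hy]
  exact H.finrank_Yf hq1

/-- the same for `X₁`: `[F : E₁] = q`. -/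
theorem finrank_of_gen_X1 [IsAlgClosed K] (hq1 : ((q + 1 : ℕ) : K) ≠ 0)
    {E₁ : Type*} [Field E₁] [Algebra K E₁] [Algebra E₁ F]
    [IsScalarTower K E₁ F] {x : E₁} (hgen : K⟮x⟯ = ⊤) (hx : algebraMap E₁ F x = H.X1) :
    Module.finrank E₁ F = q := by
  rw [hp_finrank_of_gen hgen, hx]
  exact H.finrank_X1 hq1

/-- the same for `X₂`: `[F : E₂] = q`. -/
theorem finrank_of_gen_X2 [IsAlgClosed K] (hq1 : ((q + 1 : ℕ) : K) ≠ 0)
    {E₂ : Type*} [Field E₂] [Algebra K E₂] [Algebra E₂ F]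
    [IsScalarTower K E₂ F] {x : E₂} (hgen : K⟮x⟯ = ⊤) (hx : algebraMap E₂ F x = H.X2) :
    Module.finrank E₂ F = q := by
  rw [hp_finrank_of_gen hgen, hx]
  exact H.finrank_X2 hq1

end HPCurve

end Fermat.Agent.HP
end
end MergeWrap_Lib_HP_YFun
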