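import Mathlib
import Fermat.Agent.MU.Lib.HP.YFun

section MergeWrap_Lib_HP_OfAdjoin -- from Lib/HP/OfAdjoin.lean

set_option autoImplicit false
set_option linter.unusedSectionVars false
set_option linter.unusedVariables false
set_option linter.style.haveILetI false

/-!
# Constructors of `HPCurve` (WP-RES, abstract side)

* `hp_transcendental_of_Y` : `W` is transcendental as soon as `W^q + c / W` is;
* `HPCurve.ofTower` : a tower `K → E₀ = K(y) → F` with `F = E₀(W, Z)`, `y ↦ W^q + c / W`,
  `W Z (W - Z)^(q-1) = c`: then `F` is an `HPCurve` field over `K` (generated over `K` by `W, Z`);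
* `HPCurve.ofAdjoin` : for `W, Z` in any field `L / K` with the relation and `W` transcendental,
  the subfield `K(W, Z)` is an `HPCurve` field.
* `HPCurve.finrank_ofTower` : in the situation of `ofTower`, `[F : E₀] = q (q + 1)`.
-/

noncomputable section

open IntermediateField AlgebraicCurve Polynomial

namespace Fermat.Agent.HP

variable {K F : Type*} [Field K] [Field F] [Algebra K F] {q : ℕ}

/-- in characteristic `q` the standing hypothesis `(q + 1 : K) ≠ 0` holds. -/
theorem hp_succ_ne_zero (hq0 : ((q : ℕ) : K) = 0) : ((q + 1 : ℕ) : K) ≠ 0 := by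
  rw [Nat.cast_add, hq0, zero_add, Nat.cast_one]
  exact one_ne_zero

/-- `W` is transcendental as soon as `W^q + c / W` is. -/
theorem hp_transcendental_of_Y {W : F} (c : K)
    (hY : Transcendental K (W ^ q + algebraMap K F c / W)) : Transcendental K W := by
  intro halg
  apply hY
  rw [div_eq_mul_inv]
  exact (halg.pow q).add ((isAlgebraic_algebraMap c).mul halg.inv)

/-- if `F = E₀(S)` and `E₀ = K(y)` with `y ↦ ` an element of `K(S)`, then `F = K(S)`. -/
theorem hp_adjoin_eq_top_of_tower {E₀ : Type*} [Field E₀] [Algebra K E₀] [Algebra E₀ F]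
    [IsScalarTower K E₀ F] {y : E₀} (hgen : K⟮y⟯ = ⊤) (S : Set F)
    (hy : algebraMap E₀ F y ∈ IntermediateField.adjoin K S)
    (hS : IntermediateField.adjoin E₀ S = ⊤) : IntermediateField.adjoin K S = ⊤ := by
  let φ : E₀ →ₐ[K] F := IsScalarTower.toAlgHom K E₀ F
  have hrange : ∀ e : E₀, algebraMap E₀ F e ∈ IntermediateField.adjoin K S := by
    intro e
    have h1 : e ∈ K⟮y⟯ := by rw [hgen]; exact IntermediateField.mem_top
    have h2 : φ e ∈ (K⟮y⟯).map φ := ⟨e, h1, rfl⟩
    rw [IntermediateField.adjoin_map, Set.image_singleton] at h2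
    have h3 : K⟮φ y⟯ ≤ IntermediateField.adjoin K S := by
      rw [IntermediateField.adjoin_simple_le_iff]
      exact hy
    exact h3 h2
  let E' : IntermediateField E₀ F :=
    (IntermediateField.adjoin K S).toSubfield.toIntermediateField hrange
  have hle : IntermediateField.adjoin E₀ S ≤ E' := by
    rw [IntermediateField.adjoin_le_iff]
    intro x hx
    exact IntermediateField.subset_adjoin K S hx
  rw [hS] at hle
  rw [eq_top_iff]
  intro x _
  exact hle (IntermediateField.mem_top (x := x))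

/-- a subset `S` of an intermediate field `E` whose image generates `E` generates `E` over `K`. -/
theorem hp_adjoin_subtype_eq_top {L : Type*} [Field L] [Algebra K L] (E : IntermediateField K L)
    (S : Set E) (h : IntermediateField.adjoin K ((fun x : E => (x : L)) '' S) = E) :
    IntermediateField.adjoin K S = ⊤ := by
  rw [eq_top_iff]
  intro x _
  have hmap : (IntermediateField.adjoin K S).map E.val = E := by
    rw [IntermediateField.adjoin_map]
    exact h
  have hx : (x : L) ∈ (IntermediateField.adjoin K S).map E.val := by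
    rw [hmap]
    exact x.2
  obtain ⟨m, hm, hmx⟩ := hx
  have : m = x := Subtype.ext hmx
  rw [← this]
  exact hm

namespace HPCurve

/-- constructor from a tower `K → E₀ = K(y) → F = E₀(W, Z)`. -/
def ofTower {E₀ : Type*} [Field E₀] [Algebra K E₀] [Algebra E₀ F]
    [IsScalarTower K E₀ F] {y : E₀} (hgen : K⟮y⟯ = ⊤) (hy : Transcendental K y)
    (W Z : F) (c : K) (hc : c ≠ 0) (hq : 2 ≤ q)
    (rel : W * Z * (W - Z) ^ (q - 1) = algebraMap K F c)
    (hyW : algebraMap E₀ F y = W ^ q + algebraMap K F c / W)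
    (hgenF : IntermediateField.adjoin E₀ {W, Z} = ⊤) : HPCurve K F q where
  X1 := W
  X2 := Z
  c := c
  c_ne := hc
  q_two := hq
  rel := rel
  gen := by
    refine hp_adjoin_eq_top_of_tower hgen {W, Z} ?_ hgenF
    rw [hyW]
    have hW : W ∈ IntermediateField.adjoin K {W, Z} :=
      IntermediateField.subset_adjoin K _ (Set.mem_insert _ _)
    exact add_mem (pow_mem hW q) (div_mem (IntermediateField.algebraMap_mem _ c) hW)
  transc := by
    apply hp_transcendental_of_Y (q := q) c
    rw [← hyW]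
    exact (transcendental_algebraMap_iff (R := K) (algebraMap E₀ F).injective).mpr hy

@[simp] theorem ofTower_X1 {E₀ : Type*} [Field E₀] [Algebra K E₀] [Algebra E₀ F]
    [IsScalarTower K E₀ F] {y : E₀} (hgen : K⟮y⟯ = ⊤) (hy : Transcendental K y)
    (W Z : F) (c : K) (hc : c ≠ 0) (hq : 2 ≤ q)
    (rel : W * Z * (W - Z) ^ (q - 1) = algebraMap K F c)
    (hyW : algebraMap E₀ F y = W ^ q + algebraMap K F c / W)
    (hgenF : IntermediateField.adjoin E₀ {W, Z} = ⊤) :
    (ofTower hgen hy W Z c hc hq rel hyW hgenF).X1 = W := rfl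

@[simp] theorem ofTower_X2 {E₀ : Type*} [Field E₀] [Algebra K E₀] [Algebra E₀ F]
    [IsScalarTower K E₀ F] {y : E₀} (hgen : K⟮y⟯ = ⊤) (hy : Transcendental K y)
    (W Z : F) (c : K) (hc : c ≠ 0) (hq : 2 ≤ q)
    (rel : W * Z * (W - Z) ^ (q - 1) = algebraMap K F c)
    (hyW : algebraMap E₀ F y = W ^ q + algebraMap K F c / W)
    (hgenF : IntermediateField.adjoin E₀ {W, Z} = ⊤) :
    (ofTower hgen hy W Z c hc hq rel hyW hgenF).X2 = Z := rfl

@[simp] theorem ofTower_c {E₀ : Type*} [Field E₀] [Algebra K E₀] [Algebra E₀ F]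
    [IsScalarTower K E₀ F] {y : E₀} (hgen : K⟮y⟯ = ⊤) (hy : Transcendental K y)
    (W Z : F) (c : K) (hc : c ≠ 0) (hq : 2 ≤ q)
    (rel : W * Z * (W - Z) ^ (q - 1) = algebraMap K F c)
    (hyW : algebraMap E₀ F y = W ^ q + algebraMap K F c / W)
    (hgenF : IntermediateField.adjoin E₀ {W, Z} = ⊤) :
    (ofTower hgen hy W Z c hc hq rel hyW hgenF).c = c := rfl

/-- in the situation of `ofTower`: **`[F : E₀] = q (q + 1)`**. -/
theorem finrank_ofTower [IsAlgClosed K] (hq1 : ((q + 1 : ℕ) : K) ≠ 0)
    {E₀ : Type*} [Field E₀] [Algebra K E₀] [Algebra E₀ F]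
    [IsScalarTower K E₀ F] {y : E₀} (hgen : K⟮y⟯ = ⊤) (hy : Transcendental K y)
    (W Z : F) (c : K) (hc : c ≠ 0) (hq : 2 ≤ q)
    (rel : W * Z * (W - Z) ^ (q - 1) = algebraMap K F c)
    (hyW : algebraMap E₀ F y = W ^ q + algebraMap K F c / W)
    (hgenF : IntermediateField.adjoin E₀ {W, Z} = ⊤) :
    Module.finrank E₀ F = q * (q + 1) :=
  (ofTower hgen hy W Z c hc hq rel hyW hgenF).finrank_of_gen_Yf hq1 hgen hyW

/-- **lower bound for the fundamental inequality**: in ANY field `L` over `E₀ = K(y)`, elements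
`W, Z` with `W Z (W - Z)^(q-1) = c` and `y ↦ W^q + c / W` generate a subfield of degree
`q (q + 1)` over `E₀`. -/
theorem finrank_adjoin_pair [IsAlgClosed K] (hq1 : ((q + 1 : ℕ) : K) ≠ 0)
    {E₀ : Type*} [Field E₀] [Algebra K E₀] {L : Type*} [Field L] [Algebra K L] [Algebra E₀ L]
    [IsScalarTower K E₀ L] {y : E₀} (hgen : K⟮y⟯ = ⊤) (hy : Transcendental K y)
    (W Z : L) (c : K) (hc : c ≠ 0) (hq : 2 ≤ q)
    (rel : W * Z * (W - Z) ^ (q - 1) = algebraMap K L c)
    (hyW : algebraMap E₀ L y = W ^ q + algebraMap K L c / W) :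
    Module.finrank E₀ (IntermediateField.adjoin E₀ ({W, Z} : Set L)) = q * (q + 1) := by
  have hWm : W ∈ IntermediateField.adjoin E₀ ({W, Z} : Set L) :=
    IntermediateField.subset_adjoin E₀ _ (Set.mem_insert _ _)
  have hZm : Z ∈ IntermediateField.adjoin E₀ ({W, Z} : Set L) :=
    IntermediateField.subset_adjoin E₀ _ (Set.mem_insert_of_mem _ rfl)
  have hcoe : ((algebraMap K (IntermediateField.adjoin E₀ ({W, Z} : Set L)) c :
      IntermediateField.adjoin E₀ ({W, Z} : Set L)) : L) = algebraMap K L c := rfl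
  refine finrank_ofTower (F := IntermediateField.adjoin E₀ ({W, Z} : Set L)) hq1 hgen hy
    ⟨W, hWm⟩ ⟨Z, hZm⟩ c hc hq ?_ ?_ ?_
  · apply Subtype.ext
    simpa [hcoe] using rel
  · apply Subtype.ext
    simpa [hcoe] using hyW
  · apply hp_adjoin_subtype_eq_top
    congr 1
    simp [Set.image_insert_eq]

section Adjoin

variable {L : Type*} [Field L] [Algebra K L]

/-- for `W, Z` in any field `L / K` with the relation and `W` transcendental, the subfield
`K(W, Z)` is an `HPCurve` field. -/
def ofAdjoin (W Z : L) (c : K) (hc : c ≠ 0) (hq : 2 ≤ q)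
    (rel : W * Z * (W - Z) ^ (q - 1) = algebraMap K L c) (hW : Transcendental K W) :
    HPCurve K (IntermediateField.adjoin K ({W, Z} : Set L)) q where
  X1 := ⟨W, IntermediateField.subset_adjoin K _ (Set.mem_insert _ _)⟩
  X2 := ⟨Z, IntermediateField.subset_adjoin K _ (Set.mem_insert_of_mem _ rfl)⟩
  c := c
  c_ne := hc
  q_two := hq
  rel := by
    apply Subtype.ext
    simpa using rel
  gen := by
    apply hp_adjoin_subtype_eq_top
    congr 1
    simp [Set.image_insert_eq]
  transc := by
    intro halg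
    apply hW
    have := IsAlgebraic.algHom (IntermediateField.adjoin K ({W, Z} : Set L)).val halg
    simpa using this

@[simp] theorem ofAdjoin_X1 (W Z : L) (c : K) (hc : c ≠ 0) (hq : 2 ≤ q)
    (rel : W * Z * (W - Z) ^ (q - 1) = algebraMap K L c) (hW : Transcendental K W) :
    (((ofAdjoin W Z c hc hq rel hW).X1 : IntermediateField.adjoin K ({W, Z} : Set L)) : L) = W :=
  rfl

@[simp] theorem ofAdjoin_X2 (W Z : L) (c : K) (hc : c ≠ 0) (hq : 2 ≤ q)
    (rel : W * Z * (W - Z) ^ (q - 1) = algebraMap K L c) (hW : Transcendental K W) :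
    (((ofAdjoin W Z c hc hq rel hW).X2 : IntermediateField.adjoin K ({W, Z} : Set L)) : L) = Z :=
  rfl

end Adjoin

end HPCurve

end Fermat.Agent.HP
end
end MergeWrap_Lib_HP_OfAdjoin
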