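import Mathlib
import Fermat.Agent.MU.Lib.HP.Aut

section MergeWrap_Lib_HP_Gal -- from Lib/HP/Gal.lean

set_option autoImplicit false
set_option linter.unusedSectionVars false
set_option linter.unusedVariables false
set_option linter.style.haveILetI false

/-!
# The curve `H_P`: the Galois group of `F / K(s)`

`F = K(s)(X₁)`, `X₁^(q+1) = u ∈ K(s)`, `K` algebraically closed, `q + 1` invertible in `K`.

* `HPCurve.isGalois` : `F / K(s)` is Galois (cyclic of degree `q + 1`);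
* `HPCurve.card_aut` : `Nat.card (F ≃ₐ[K(s)] F) = q + 1`;
* `HPCurve.mem_iff_fixed` : `x ∈ K(s) ↔ ∀ σ, σ x = x`;
* `HPCurve.aut_eq_autHom` : every `σ ∈ Gal(F / K(s))` is a `σ_η`, `η^(q+1) = 1`;
* `HPCurve.galK` : the subgroup `{σ | σ s = s}` of `Aut_K(F)`; it is finite of order `q + 1`,
  consists of the `σ_η`, and its fixed field is `K(s)`;
* `HPCurve.algEquiv_eq_autEquiv` : a `K`-automorphism with `σ X₁ = η X₁`, `σ X₂ = η X₂` is `σ_η`
  (and then `η^(q+1) = 1` automatically: `HPCurve.eta_pow_eq_one`).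
-/

noncomputable section

open IntermediateField AlgebraicCurve Polynomial

namespace Fermat.Agent.HP

variable {K F : Type*} [Field K] [Field F] [Algebra K F] {q : ℕ}

/-- the intermediate field of elements fixed by a `K`-algebra endomorphism. -/
def hpFixedBy (σ : F →ₐ[K] F) : IntermediateField K F where
  carrier := {x | σ x = x}
  mul_mem' := fun {a b} ha hb => by
    simp only [Set.mem_ofPred_eq] at ha hb ⊢
    rw [map_mul, ha, hb]
  add_mem' := fun {a b} ha hb => by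
    simp only [Set.mem_ofPred_eq] at ha hb ⊢
    rw [map_add, ha, hb]
  algebraMap_mem' := fun r => by
    simp only [Set.mem_ofPred_eq]
    exact σ.commutes r
  inv_mem' := fun a ha => by
    simp only [Set.mem_ofPred_eq] at ha ⊢
    rw [map_inv₀, ha]

theorem mem_hpFixedBy (σ : F →ₐ[K] F) (x : F) : x ∈ hpFixedBy σ ↔ σ x = x := Iff.rfl

/-- a `K`-algebra endomorphism fixing `t` fixes `K(t)` pointwise. -/
theorem hp_fixes_adjoin (σ : F →ₐ[K] F) (t : F) (ht : σ t = t) (x : F) (hx : x ∈ K⟮t⟯) :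
    σ x = x := by
  have h : K⟮t⟯ ≤ hpFixedBy σ := by
    apply IntermediateField.adjoin_le_iff.mpr
    intro y hy
    rw [Set.mem_singleton_iff] at hy
    rw [hy]
    exact ht
  exact h hx

/-- two `K`-algebra endomorphisms agreeing on a generating set agree. -/
theorem hp_algHom_ext_of_adjoin {S : Set F} (hS : IntermediateField.adjoin K S = ⊤)
    (σ τ : F →ₐ[K] F) (h : ∀ x ∈ S, σ x = τ x) (x : F) : σ x = τ x := by
  let E : IntermediateField K F :=
    { carrier := {x | σ x = τ x}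
      mul_mem' := fun {a b} ha hb => by
        simp only [Set.mem_ofPred_eq] at ha hb ⊢
        rw [map_mul, map_mul, ha, hb]
      add_mem' := fun {a b} ha hb => by
        simp only [Set.mem_ofPred_eq] at ha hb ⊢
        rw [map_add, map_add, ha, hb]
      algebraMap_mem' := fun r => by
        simp only [Set.mem_ofPred_eq]
        rw [σ.commutes, τ.commutes]
      inv_mem' := fun a ha => by
        simp only [Set.mem_ofPred_eq] at ha ⊢
        rw [map_inv₀, map_inv₀, ha] }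
  have hE : IntermediateField.adjoin K S ≤ E := by
    apply IntermediateField.adjoin_le_iff.mpr
    intro y hy
    exact h y hy
  rw [hS] at hE
  exact hE (IntermediateField.mem_top (F := K) (E := F) (x := x))

namespace HPCurve

variable (H : HPCurve K F q)

section Gal

variable [IsAlgClosed K] (hq1 : ((q + 1 : ℕ) : K) ≠ 0)

include hq1 in
/-- the Kummer polynomial `T^(q+1) - u` is irreducible over `K(s)`. -/
theorem kummerPoly_irreducible : Irreducible H.kummerPoly := by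
  rw [← H.minpoly_X1 hq1]
  exact minpoly.irreducible H.isIntegral_X1

include hq1 in
omit H in
theorem hp_exists_primitiveRoot : ∃ ζ : K, IsPrimitiveRoot ζ (q + 1) := by
  haveI : NeZero ((q + 1 : ℕ) : K) := ⟨hq1⟩
  exact HasEnoughRootsOfUnity.exists_primitiveRoot K (q + 1)

include hq1 in
theorem primitiveRoots_nonempty : (primitiveRoots (q + 1) K⟮H.s⟯).Nonempty := by
  obtain ⟨ζ, hζ⟩ := hp_exists_primitiveRoot hq1
  exact ⟨algebraMap K K⟮H.s⟯ ζ, (mem_primitiveRoots (by omega)).mpr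
    (hζ.map_of_injective (algebraMap K K⟮H.s⟯).injective)⟩

include hq1 in
/-- `F` is a splitting field of `T^(q+1) - u` over `K(s)`. -/
theorem isSplittingField : IsSplittingField K⟮H.s⟯ F (X ^ (q + 1) - C H.u) := by
  have hfr := H.finrank_eq hq1
  have h := isSplittingField_X_pow_sub_C_of_root_adjoin_eq_top (K := K⟮H.s⟯) (L := F)
    (by rw [hfr]; exact H.primitiveRoots_nonempty hq1) (a := H.u) (α := H.X1)
    (by rw [hfr]; exact H.X1_pow_eq_u) H.adjoin_X1_eq_top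
  rwa [hfr] at h

include hq1 in
/-- `F / K(s)` is Galois. -/
theorem isGalois : IsGalois K⟮H.s⟯ F := by
  haveI := H.isSplittingField hq1
  exact isGalois_of_isSplittingField_X_pow_sub_C (H.primitiveRoots_nonempty hq1)
    (H.kummerPoly_irreducible hq1) F

include hq1 in
/-- `Gal(F / K(s))` is cyclic. -/
theorem isCyclic_aut : IsCyclic (F ≃ₐ[K⟮H.s⟯] F) := by
  haveI := H.isSplittingField hq1
  haveI : NeZero (q + 1) := ⟨by omega⟩
  exact isCyclic_of_isSplittingField_X_pow_sub_C (H.primitiveRoots_nonempty hq1)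
    (H.kummerPoly_irreducible hq1) F

include hq1 in
/-- `Gal(F / K(s))` has order `q + 1`. -/
theorem card_aut : Nat.card (F ≃ₐ[K⟮H.s⟯] F) = q + 1 := by
  haveI := H.isGalois hq1
  rw [IsGalois.card_aut_eq_finrank, H.finrank_eq hq1]

include hq1 in
/-- the fixed field of `Gal(F / K(s))` is `K(s)`. -/
theorem mem_iff_fixed (x : F) : x ∈ K⟮H.s⟯ ↔ ∀ σ : F ≃ₐ[K⟮H.s⟯] F, σ x = x := by
  haveI := H.isGalois hq1
  rw [← IsGalois.mem_bot_iff_fixed (F := K⟮H.s⟯) (E := F), IntermediateField.mem_bot]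
  constructor
  · intro hx
    exact ⟨⟨x, hx⟩, rfl⟩
  · rintro ⟨y, rfl⟩
    exact y.2

omit H in
/-- an element `y` of `F` with `y^(q+1) = 1` is a constant. -/
theorem hp_const_of_pow_eq_one (y : F) (hy : y ^ (q + 1) = 1) :
    ∃ η : K, η ^ (q + 1) = 1 ∧ algebraMap K F η = y := by
  have halg : IsAlgebraic K y := by
    refine ⟨X ^ (q + 1) - C 1, ?_, ?_⟩
    · intro h0
      have := congrArg (fun p => p.natDegree) h0
      simp only [natDegree_zero] at this
      rw [natDegree_sub_C, natDegree_X_pow] at this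
      omega
    · simp only [map_sub, map_pow, aeval_X, aeval_C, map_one]
      rw [hy, sub_self]
  obtain ⟨η, hη⟩ := Fermat.Agent.S24Res.mem_range_of_isAlgebraic halg
  refine ⟨η, ?_, hη⟩
  apply (algebraMap K F).injective
  rw [map_pow, hη, hy, map_one]

/-- a ring endomorphism-like map fixing `u` multiplies `X₁` by a `(q+1)`-th root of unity. -/
theorem exists_eta_of_pow (y : F) (hy : y ^ (q + 1) = H.X1 ^ (q + 1)) :
    ∃ η : K, η ^ (q + 1) = 1 ∧ y = algebraMap K F η * H.X1 := by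
  have h1 : (y / H.X1) ^ (q + 1) = 1 := by
    rw [div_pow, hy, div_self (pow_ne_zero _ H.X1_ne)]
  obtain ⟨η, hη, hηy⟩ := hp_const_of_pow_eq_one (K := K) (q := q) (y / H.X1) h1
  refine ⟨η, hη, ?_⟩
  rw [hηy, div_mul_cancel₀ _ H.X1_ne]

/-- every `σ ∈ Gal(F / K(s))` multiplies `X₁` by a `(q+1)`-th root of unity. -/
theorem aut_X1 (σ : F →ₐ[K⟮H.s⟯] F) :
    ∃ η : K, η ^ (q + 1) = 1 ∧ σ H.X1 = algebraMap K F η * H.X1 := by
  apply H.exists_eta_of_pow
  rw [← map_pow, H.X1_pow_eq_u]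
  exact σ.commutes H.u

/-- two `K(s)`-algebra endomorphisms of `F` agreeing at `X₁` are equal. -/
theorem algHom_ext_X1 (σ τ : F →ₐ[K⟮H.s⟯] F) (h : σ H.X1 = τ H.X1) (x : F) : σ x = τ x := by
  refine hp_algHom_ext_of_adjoin (K := K⟮H.s⟯) (S := {H.X1}) H.adjoin_X1_eq_top σ τ ?_ x
  intro y hy
  rw [Set.mem_singleton_iff] at hy
  rw [hy]
  exact h

/-- every `σ ∈ Gal(F / K(s))` is a `σ_η`. -/
theorem aut_eq_autHom (σ : F →ₐ[K⟮H.s⟯] F) :
    ∃ (η : K) (hη : η ^ (q + 1) = 1), ∀ x, σ x = H.autHom hq1 η hη x := by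
  obtain ⟨η, hη, h⟩ := H.aut_X1 σ
  refine ⟨η, hη, fun x => H.algHom_ext_X1 σ (H.autHom hq1 η hη) ?_ x⟩
  rw [h, H.autHom_X1]

/-- the fixed field of the `σ_η` is `K(s)`. -/
theorem mem_iff_fixed_autHom (x : F) :
    x ∈ K⟮H.s⟯ ↔ ∀ (η : K) (hη : η ^ (q + 1) = 1), H.autHom hq1 η hη x = x := by
  constructor
  · intro hx η hη
    exact (H.autHom hq1 η hη).commutes ⟨x, hx⟩
  · intro h
    rw [H.mem_iff_fixed hq1]
    intro σ
    obtain ⟨η, hη, hσ⟩ := H.aut_eq_autHom hq1 (σ : F →ₐ[K⟮H.s⟯] F)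
    have := hσ x
    rw [h η hη] at this
    exact this

/-- the fixed field of the `σ_η` (as `K`-automorphisms) is `K(s)`. -/
theorem mem_iff_fixed_autEquiv (x : F) :
    x ∈ K⟮H.s⟯ ↔ ∀ (η : K) (hη : η ^ (q + 1) = 1), H.autEquiv hq1 η hη x = x :=
  H.mem_iff_fixed_autHom hq1 x

/-! ### `K`-automorphisms fixing `s` -/

/-- the group `Gal(F / K(s))` as a subgroup of `Aut_K(F)`: the stabiliser of `s`. -/
def galK : Subgroup (F ≃ₐ[K] F) where
  carrier := {σ | σ H.s = H.s}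
  mul_mem' := fun {a b} ha hb => by
    simp only [Set.mem_ofPred_eq] at ha hb ⊢
    rw [AlgEquiv.mul_apply, hb, ha]
  one_mem' := rfl
  inv_mem' := fun {a} ha => by
    simp only [Set.mem_ofPred_eq] at ha ⊢
    rw [AlgEquiv.aut_inv]
    exact (AlgEquiv.symm_apply_eq a).mpr ha.symm

theorem mem_galK (σ : F ≃ₐ[K] F) : σ ∈ H.galK ↔ σ H.s = H.s := Iff.rfl

theorem autEquiv_mem_galK (η : K) (hη : η ^ (q + 1) = 1) : H.autEquiv hq1 η hη ∈ H.galK :=
  H.autK_s hq1 η hη

/-- a `K`-endomorphism fixing `s` fixes `K(s)`. -/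
theorem fixes_of_s (σ : F →ₐ[K] F) (hσ : σ H.s = H.s) (x : K⟮H.s⟯) : σ (x : F) = x :=
  hp_fixes_adjoin σ H.s hσ x x.2

/-- a `K`-endomorphism of `F` fixing `s`, as a `K(s)`-endomorphism. -/
def extendHom (σ : F →ₐ[K] F) (hσ : σ H.s = H.s) : F →ₐ[K⟮H.s⟯] F :=
  { σ.toRingHom with
    commutes' := fun r => H.fixes_of_s σ hσ r }

theorem extendHom_apply (σ : F →ₐ[K] F) (hσ : σ H.s = H.s) (x : F) :
    H.extendHom σ hσ x = σ x := rfl

/-- a `K`-endomorphism of `F` fixing `s` is a `σ_η`. -/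
theorem algHom_eq_autK (σ : F →ₐ[K] F) (hσ : σ H.s = H.s) :
    ∃ (η : K) (hη : η ^ (q + 1) = 1), ∀ x, σ x = H.autK hq1 η hη x := by
  obtain ⟨η, hη, h⟩ := H.aut_eq_autHom hq1 (H.extendHom σ hσ)
  exact ⟨η, hη, h⟩

/-- the elements of `galK` are exactly the `σ_η`. -/
theorem mem_galK_iff (σ : F ≃ₐ[K] F) :
    σ ∈ H.galK ↔ ∃ (η : K) (hη : η ^ (q + 1) = 1), σ = H.autEquiv hq1 η hη := by
  constructor
  · intro hσ
    obtain ⟨η, hη, h⟩ := H.algHom_eq_autK hq1 (σ : F →ₐ[K] F) hσ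
    exact ⟨η, hη, AlgEquiv.ext h⟩
  · rintro ⟨η, hη, rfl⟩
    exact H.autEquiv_mem_galK hq1 η hη

include hq1 in
/-- the fixed field of `galK` is `K(s)`. -/
theorem mem_iff_fixed_galK (x : F) : x ∈ K⟮H.s⟯ ↔ ∀ σ ∈ H.galK, σ x = x := by
  constructor
  · intro hx σ hσ
    exact H.fixes_of_s (σ : F →ₐ[K] F) hσ ⟨x, hx⟩
  · intro h
    rw [H.mem_iff_fixed_autEquiv hq1]
    intro η hη
    exact h _ (H.autEquiv_mem_galK hq1 η hη)

/-- `galK ≃ Gal(F / K(s))`. -/
def galKEquiv : H.galK ≃ (F ≃ₐ[K⟮H.s⟯] F) where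
  toFun σ := AlgEquiv.ofBijective (H.extendHom (σ.1 : F →ₐ[K] F) σ.2) σ.1.bijective
  invFun τ := ⟨τ.restrictScalars K, τ.commutes ⟨H.s, H.s_mem⟩⟩
  left_inv σ := by
    apply Subtype.ext
    apply AlgEquiv.ext
    intro x
    rfl
  right_inv τ := by
    apply AlgEquiv.ext
    intro x
    rfl

include hq1 in
/-- `galK` has order `q + 1`. -/
theorem card_galK : Nat.card H.galK = q + 1 := by
  rw [Nat.card_congr H.galKEquiv, H.card_aut hq1]

include hq1 in
theorem finite_galK : Finite H.galK := by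
  apply Nat.finite_of_card_ne_zero
  rw [H.card_galK hq1]
  omega

/-! ### Recognising `σ_η` from its values at `X₁`, `X₂` -/

/-- if a `K`-endomorphism multiplies `X₁` and `X₂` by `η`, then `η^(q+1) = 1`. -/
theorem eta_pow_eq_one (σ : F →ₐ[K] F) (η : K) (h1 : σ H.X1 = algebraMap K F η * H.X1)
    (h2 : σ H.X2 = algebraMap K F η * H.X2) : η ^ (q + 1) = 1 := by
  have h := congrArg σ H.rel
  rw [map_mul, map_mul, map_pow, map_sub, h1, h2, AlgHom.commutes] at h
  have hq := H.q_two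
  have e : algebraMap K F η * H.X1 * (algebraMap K F η * H.X2) *
      (algebraMap K F η * H.X1 - algebraMap K F η * H.X2) ^ (q - 1) =
      algebraMap K F η ^ (q - 1 + 2) * (H.X1 * H.X2 * (H.X1 - H.X2) ^ (q - 1)) := by
    rw [← mul_sub, mul_pow]
    ring
  rw [e, H.rel, show q - 1 + 2 = q + 1 by omega] at h
  have h3 : algebraMap K F η ^ (q + 1) = 1 := by
    have hc := H.algebraMap_c_ne
    field_simp at h
    exact h
  apply (algebraMap K F).injective
  rw [map_pow, h3, map_one]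

/-- a `K`-endomorphism with `σ X₁ = η X₁`, `σ X₂ = η X₂` fixes `s`. -/
theorem fixes_s_of_eta (σ : F →ₐ[K] F) (η : K) (h1 : σ H.X1 = algebraMap K F η * H.X1)
    (h2 : σ H.X2 = algebraMap K F η * H.X2) : σ H.s = H.s := by
  have hη : algebraMap K F η ≠ 0 := by
    intro h0
    rw [h0, zero_mul] at h1
    exact H.X1_ne ((map_eq_zero_iff σ σ.toRingHom.injective).mp h1)
  unfold s
  rw [map_div₀, h1, h2, mul_div_mul_left _ _ hη]

/-- a `K`-endomorphism with `σ X₁ = η X₁`, `σ X₂ = η X₂` is `σ_η`. -/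
theorem algHom_eq_autK_of_eta (σ : F →ₐ[K] F) (η : K) (hη : η ^ (q + 1) = 1)
    (h1 : σ H.X1 = algebraMap K F η * H.X1) (h2 : σ H.X2 = algebraMap K F η * H.X2) (x : F) :
    σ x = H.autK hq1 η hη x := by
  refine hp_algHom_ext_of_adjoin (K := K) (S := {H.X1, H.X2}) H.gen σ (H.autK hq1 η hη) ?_ x
  intro y hy
  rcases hy with hy | hy
  · rw [hy, h1, H.autK_X1]
  · rw [Set.mem_singleton_iff] at hy
    rw [hy, h2, H.autK_X2]

/-- a `K`-automorphism with `σ X₁ = η X₁`, `σ X₂ = η X₂` is `σ_η`. -/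
theorem algEquiv_eq_autEquiv (σ : F ≃ₐ[K] F) (η : K) (hη : η ^ (q + 1) = 1)
    (h1 : σ H.X1 = algebraMap K F η * H.X1) (h2 : σ H.X2 = algebraMap K F η * H.X2) :
    σ = H.autEquiv hq1 η hη :=
  AlgEquiv.ext (H.algHom_eq_autK_of_eta hq1 (σ : F →ₐ[K] F) η hη h1 h2)

/-! ### The norm to `K(s)` -/

include hq1 in
/-- the norm to `K(s)` is the product of the Galois conjugates. -/
theorem norm_eq_prod (x : F) :
    algebraMap K⟮H.s⟯ F (Algebra.norm K⟮H.s⟯ x) = ∏ σ : F ≃ₐ[K⟮H.s⟯] F, σ x := by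
  haveI := H.isGalois hq1
  exact Algebra.norm_eq_prod_automorphisms K⟮H.s⟯ x

include hq1 in
/-- if every Galois conjugate of `x` is a constant multiple of `x`, then `x^(q+1)` is a constant
multiple of an element of `K(s)` (its norm). -/
theorem pow_eq_const_mul_norm (x : F)
    (hx : ∀ σ : F ≃ₐ[K⟮H.s⟯] F, ∃ a : K, a ≠ 0 ∧ σ x = algebraMap K F a * x) :
    ∃ a : K, a ≠ 0 ∧
      algebraMap K⟮H.s⟯ F (Algebra.norm K⟮H.s⟯ x) = algebraMap K F a * x ^ (q + 1) := by
  classical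
  haveI := H.isGalois hq1
  choose a ha using hx
  refine ⟨∏ σ : F ≃ₐ[K⟮H.s⟯] F, a σ, Finset.prod_ne_zero_iff.mpr (fun σ _ => (ha σ).1), ?_⟩
  rw [Algebra.norm_eq_prod_automorphisms K⟮H.s⟯ x]
  have h1 : ∀ σ : F ≃ₐ[K⟮H.s⟯] F, σ x = algebraMap K F (a σ) * x := fun σ => (ha σ).2
  simp_rw [h1]
  rw [Finset.prod_mul_distrib, map_prod, Finset.prod_const, Finset.card_univ,
    ← Nat.card_eq_fintype_card, H.card_aut hq1]

end Gal

end HPCurve

end Fermat.Agent.HP
end
end MergeWrap_Lib_HP_Gal
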